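import Fermat.Agent.S26.TopT
import Fermat.Agent.S26.INTEG.VolData2024

/-!
# S26: top-level skeleton (FROZEN interface statements; lead helper3926)

Every statement below is the EXPORT of one package (see BOARD.md).  The final theorem
`result_of_exports` is assembled from them (package P16 INTEG proves `exists_volData`).

Standing hypotheses = the hypotheses of the frozen statement S26.
-/

set_option autoImplicit false

universe u

open CategoryTheory CategoryTheory.Limits AlgebraicGeometry NeronModelInfra GoodReductionJacobian

namespace Fermat.Agent.S26

noncomputable section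

variable {K : Type u} [Field K] [IsAlgClosed K] {A : Scheme.{u}}
  {f : A ⟶ Spec (CommRingCat.of K)}

/-! ## P16 INTEG: assembly -/

/-- P16 EXPORT: the data of the abstract volume count. -/
theorem exists_volData [IsIntegral A] (L : RelativeGroupLaw K f) (hc : L.IsCommutative)
    (hA : AbelianSchemePropertyBundle K f) (g : ℕ) [SmoothOfRelativeDimension g f]
    (n : ℕ) (hn : (n : K) ≠ 0) :
    letI := torsCommGroup L hc n
    letI := torsAction L hc n
    Nonempty (VolData K (FF f) g n (TorsPts L n)) := by
  exact INTEG.H2024.exists_volData L hc hA g n hn

/-- The frozen statement, assembled from the package exports. -/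
theorem result_of_exports (L : RelativeGroupLaw K f) (hc : L.IsCommutative)
    (hA : AbelianSchemePropertyBundle K f) (g : ℕ) [SmoothOfRelativeDimension g f]
    (n : ℕ) (hn : (n : K) ≠ 0) :
    Nat.card (TorsPts L n) = n ^ (2 * g) := by
  haveI : IsIntegral A := isIntegral_A L hA
  letI := torsCommGroup L hc n
  letI := torsAction L hc n
  haveI : Finite (TorsPts L n) := finite_TorsPts L hc hA n hn
  obtain ⟨V⟩ := exists_volData L hc hA g n hn
  have hn0 : 0 < n := Nat.pos_of_ne_zero (fun h => hn (by simp [h]))
  exact V.card_eq hn0 (trdeg_FF L hA g)

end

end Fermat.Agent.S26
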