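import Fermat.Agent.S26.Defs

/-!
# S26: definitions specific to the abelian variety `A` of the frozen statement (FROZEN)

`Pts f` = K-points, `transl L a` = translation by the K-point `a`, `negMap L` = inverse map,
`L.schemeNsmul n` (Prelude) = multiplication by `n`, `TorsPts L n` = the n-torsion K-points.
-/

set_option autoImplicit false

universe u

open CategoryTheory CategoryTheory.Limits AlgebraicGeometry NeronModelInfra GoodReductionJacobian

namespace Fermat.Agent.S26

noncomputable section

variable {K : Type u} [Field K] {A : Scheme.{u}} {f : A ⟶ Spec (CommRingCat.of K)}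

/-- The `K`-points of `A`. -/
abbrev Pts (f : A ⟶ Spec (CommRingCat.of K)) : Type u :=
  SchemeHomOver (𝟙 (Spec (CommRingCat.of K))) f

/-- The constant `A`-point of `A` with value the `K`-point `a`. -/
def constPt (a : Pts f) : SchemeHomOver f f :=
  schemeHomOverComp f (Category.comp_id f) a

/-- Translation `x ↦ x + a` by the `K`-point `a`. -/
def transl (L : RelativeGroupLaw K f) (a : Pts f) : A ⟶ A :=
  (L.mul f RelativeGroupLaw.idPoint (constPt a)).1

/-- The inverse map `x ↦ -x`. -/
def negMap (L : RelativeGroupLaw K f) : A ⟶ A :=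
  (L.inv f RelativeGroupLaw.idPoint).1

/-- The addition map on `T`-points, as a morphism `T ⟶ A`. -/
def addMap (L : RelativeGroupLaw K f) {T : Scheme.{u}} (α β : T ⟶ A)
    (h : α ≫ f = β ≫ f) : T ⟶ A :=
  (L.mul (α ≫ f) ⟨α, rfl⟩ ⟨β, h.symm⟩).1

/-- The closed point of `A` underlying a `K`-point. -/
def ptOf (a : Pts f) : A :=
  a.1.base (IsLocalRing.closedPoint K)

/-- The `n`-torsion `K`-points (the type counted by the frozen statement). -/
abbrev TorsPts (L : RelativeGroupLaw K f) (n : ℕ) : Type u :=
  {x : Pts f // L.IsTorsionPoint (𝟙 (Spec (CommRingCat.of K))) n x}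

end

end Fermat.Agent.S26
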