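import Mathlib
import Fermat.Prelude.Def_AlgebraicCurve_DivisorClassGroup
import Fermat.Prelude.Def_AlgebraicCurve_Repartitions
import Fermat.Agent.S26.CURVE.Export9916

/-!
# S26, package P12 (CURVE): function fields in one variable (frozen statement of the lead, proved)

(The frozen P13 export `exists_section_of_degree_ge` is not used by the closure: `seesaw` is proved
from `CURVEK.K3` directly; it is therefore not restated here.)

Pure algebra about the Prelude types `AlgebraicCurve.Place`, `Divisor`, `riemannRochSpace`.
Blueprint: notes/S26_CUBE_BLUEPRINT.md (origin/helper3926), section 2.  ANY characteristic.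
-/

set_option autoImplicit false

open AlgebraicCurve

namespace Fermat.Agent.S26

/-- P12 EXPORT (Riemann's theorem and a non-special effective divisor).  `F/K` a function field
in one variable over an algebraically closed field. -/
theorem exists_riemann_genus (K F : Type*) [Field K] [Field F] [Algebra K F] [IsAlgClosed K]
    [Algebra.EssFiniteType K F] (htr : Algebra.trdeg K F = 1) :
    HasPrincipalDivisors K F ∧
    (∀ D : Divisor K F, Module.Finite K (riemannRochSpace D)) ∧
    ∃ γ : ℕ,
      (∀ D : Divisor K F,
        Divisor.degree D + 1 - (γ : ℤ) ≤ (Module.finrank K (riemannRochSpace D) : ℤ)) ∧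
      ∃ E : Divisor K F, 0 ≤ E ∧ Divisor.degree E = (γ : ℤ) ∧
        Module.finrank K (riemannRochSpace E) = 1 := by
  exact CURVE.exists_riemann_genus K F htr

end Fermat.Agent.S26
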