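/-
S26 library brick (helper7605), Mathlib only: the centre of a valuation ring on a universally
closed integral scheme, in stalk language.

* `exists_center_over` : relative form (for NORM-type arguments): `σ : X ⟶ Y` universally closed,
  `O ⊆ K(X)` a valuation ring with a compatible `Spec O ⟶ Y`; then `O` dominates `𝒪_{X,x}` for a
  point `x` over the image of the closed point.
* `exists_center`, `exists_stalk_le` : over `Spec K`; hypothesis `∀ a : K, constHom f a ∈ O`.
* `constHom f : K ⟶ K(X)` with `constHom_eq` (= `ΓSpecIso.inv ≫ f.appTop ≫ germ ⊤ η`).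
-/
import Mathlib

set_option autoImplicit false

universe u

open CategoryTheory AlgebraicGeometry

namespace Fermat.Agent.S26.Center7605

variable {X : Scheme.{u}} [IsIntegral X]

/-- The inclusion of a valuation subring of the function field, as a morphism of `CommRingCat`. -/
noncomputable def inclHom (O : ValuationSubring X.functionField) :
    CommRingCat.of O ⟶ CommRingCat.of X.functionField :=
  CommRingCat.ofHom (algebraMap O X.functionField)

theorem inclHom_apply (O : ValuationSubring X.functionField) (a : O) :
    (inclHom O) a = (a : X.functionField) := rfl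

/-- Stalk-level consequence of a lift in the valuative criterion: the local ring of the centre
is contained in the valuation ring. -/
theorem stalkSpecializes_mem_of_lift (O : ValuationSubring X.functionField)
    (l : Spec (CommRingCat.of O) ⟶ X)
    (hl : Spec.map (inclHom O) ≫ l = X.fromSpecStalk (genericPoint X))
    (s : X.presheaf.stalk (l (IsLocalRing.closedPoint O))) :
    X.presheaf.stalkSpecializes ((genericPoint_spec X).specializes (Set.mem_univ _)) s ∈ O := by
  have h := (genericPoint_spec X).specializes (Set.mem_univ (l (IsLocalRing.closedPoint O)))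
  have key : Scheme.stalkClosedPointTo l ≫ inclHom O = X.presheaf.stalkSpecializes h := by
    apply Spec.map_injective
    rw [← cancel_mono (X.fromSpecStalk (l (IsLocalRing.closedPoint O))), Spec.map_comp,
      Category.assoc, Scheme.Spec_stalkClosedPointTo_fromSpecStalk, hl,
      Scheme.SpecMap_stalkSpecializes_fromSpecStalk]
  have h2 : X.presheaf.stalkSpecializes h s = (inclHom O) (Scheme.stalkClosedPointTo l s) := by
    rw [← key]
    rfl
  rw [h2]
  exact (Scheme.stalkClosedPointTo l s).2

/-- Existence part of the valuative criterion for the function field of an integral scheme. -/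
theorem exists_lift {Y : Scheme.{u}} (σ : X ⟶ Y) [UniversallyClosed σ]
    (O : ValuationSubring X.functionField) (i₂ : Spec (CommRingCat.of O) ⟶ Y)
    (h : Spec.map (inclHom O) ≫ i₂ = X.fromSpecStalk (genericPoint X) ≫ σ) :
    ∃ l : Spec (CommRingCat.of O) ⟶ X,
      Spec.map (inclHom O) ≫ l = X.fromSpecStalk (genericPoint X) ∧ l ≫ σ = i₂ := by
  have hσ : ValuativeCriterion.Existence σ := by
    have h1 : (ValuativeCriterion.Existence ⊓ @QuasiCompact) σ := by
      rw [← UniversallyClosed.eq_valuativeCriterion]
      infer_instance
    exact h1.1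
  let S : ValuativeCommSq σ :=
    { R := O
      K := X.functionField
      i₁ := X.fromSpecStalk (genericPoint X)
      i₂ := i₂
      commSq := ⟨h.symm⟩ }
  obtain ⟨⟨l⟩⟩ := hσ S
  exact ⟨l.l, l.fac_left, l.fac_right⟩

/-- **Centre of a valuation ring** (relative form).  If `σ : X ⟶ Y` is universally closed, `X`
integral, and the valuation ring `O ⊆ K(X)` comes with a compatible morphism `Spec O ⟶ Y`, then
`O` dominates the local ring of a point `x` of `X` lying over the image of the closed point. -/
theorem exists_center_over {Y : Scheme.{u}} (σ : X ⟶ Y) [UniversallyClosed σ]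
    (O : ValuationSubring X.functionField) (i₂ : Spec (CommRingCat.of O) ⟶ Y)
    (h : Spec.map (inclHom O) ≫ i₂ = X.fromSpecStalk (genericPoint X) ≫ σ) :
    ∃ (x : X) (φ : X.presheaf.stalk x →+* O), IsLocalHom φ ∧
      (∀ s, ((φ s : O) : X.functionField) =
        X.presheaf.stalkSpecializes ((genericPoint_spec X).specializes (Set.mem_univ x)) s) ∧
      σ x = i₂ (IsLocalRing.closedPoint O) := by
  obtain ⟨l, hl, hlσ⟩ := exists_lift σ O i₂ h
  refine ⟨l (IsLocalRing.closedPoint O), (Scheme.stalkClosedPointTo l).hom, inferInstance, ?_, ?_⟩
  · intro s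
    have hs := (genericPoint_spec X).specializes (Set.mem_univ (l (IsLocalRing.closedPoint O)))
    have key : Scheme.stalkClosedPointTo l ≫ inclHom O = X.presheaf.stalkSpecializes hs := by
      apply Spec.map_injective
      rw [← cancel_mono (X.fromSpecStalk (l (IsLocalRing.closedPoint O))), Spec.map_comp,
        Category.assoc, Scheme.Spec_stalkClosedPointTo_fromSpecStalk, hl,
        Scheme.SpecMap_stalkSpecializes_fromSpecStalk]
    rw [← key]
    rfl
  · rw [← hlσ]
    rfl

section overField

variable {K : Type u} [Field K]

/-- The structure map `K → K(X)` of an integral `K`-scheme. -/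
noncomputable def constHom (f : X ⟶ Spec (CommRingCat.of K)) :
    CommRingCat.of K ⟶ X.functionField :=
  Spec.preimage (X.fromSpecStalk (genericPoint X) ≫ f)

theorem Spec_map_constHom (f : X ⟶ Spec (CommRingCat.of K)) :
    Spec.map (constHom f) = X.fromSpecStalk (genericPoint X) ≫ f :=
  Spec.map_preimage _

theorem constHom_eq (f : X ⟶ Spec (CommRingCat.of K)) :
    constHom f = (Scheme.ΓSpecIso (CommRingCat.of K)).inv ≫ f.appTop ≫
      X.presheaf.germ ⊤ (genericPoint X) trivial := by
  apply Spec.map_injective
  rw [Spec_map_constHom, ← cancel_mono (Spec (CommRingCat.of K)).toSpecΓ, Category.assoc,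
    Scheme.toSpecΓ_naturality, ← Category.assoc, Scheme.fromSpecStalk_toSpecΓ, Spec.map_comp,
    Spec.map_comp, Category.assoc, Category.assoc, SpecMap_ΓSpecIso_inv_toSpecΓ, Category.comp_id]

/-- **Centre of a valuation ring** on a universally closed (e.g. proper) integral `K`-scheme:
every valuation ring of the function field containing the constants dominates the local ring of
some point. -/
theorem exists_center (f : X ⟶ Spec (CommRingCat.of K)) [UniversallyClosed f]
    (O : ValuationSubring X.functionField) (hO : ∀ a : K, constHom f a ∈ O) :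
    ∃ (x : X) (φ : X.presheaf.stalk x →+* O), IsLocalHom φ ∧
      ∀ s, ((φ s : O) : X.functionField) =
        X.presheaf.stalkSpecializes ((genericPoint_spec X).specializes (Set.mem_univ x)) s := by
  let ψ : K →+* O := (constHom f).hom.codRestrict O.toSubring hO
  have h : Spec.map (inclHom O) ≫ Spec.map (CommRingCat.ofHom ψ) =
      X.fromSpecStalk (genericPoint X) ≫ f := by
    rw [← Spec.map_comp, ← Spec_map_constHom]
    rfl
  obtain ⟨x, φ, hφ, hφ', -⟩ := exists_center_over f O _ h
  exact ⟨x, φ, hφ, hφ'⟩

/-- Consequence used for valuative bounds: the local ring of the centre lies in `O`. -/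
theorem exists_stalk_le (f : X ⟶ Spec (CommRingCat.of K)) [UniversallyClosed f]
    (O : ValuationSubring X.functionField) (hO : ∀ a : K, constHom f a ∈ O) :
    ∃ x : X, ∀ s : X.presheaf.stalk x,
      X.presheaf.stalkSpecializes ((genericPoint_spec X).specializes (Set.mem_univ x)) s ∈ O := by
  obtain ⟨x, φ, -, hφ⟩ := exists_center f O hO
  exact ⟨x, fun s => hφ s ▸ (φ s).2⟩

end overField

end Fermat.Agent.S26.Center7605
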