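import Fermat.Agent.S26.Geom

/-!
# S26: the cube chain, DEFINITIONS ONLY (layered split of the frozen TChain.lean of lead helper3926;
the exports live in TChainA/B/C/D.lean, re-exported by TChain.lean)

Goal of the chain: `T_linEquiv_of_chain` (= the export `T_linEquiv` of Top.lean).
Route: notes/S26_ROUTE_PLAN.md, Steps V - VII.

Products: `X ×_K Y := pullback sX sY`, structure map `prodS sX sY`.
All divisor statements are about families of local equations (`Fam`), linear equivalence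
`Fam.LinEquiv`, and the class-level pullback `Fam.pullc` (defined for every morphism).
-/

set_option autoImplicit false

universe u

open CategoryTheory CategoryTheory.Limits AlgebraicGeometry NeronModelInfra GoodReductionJacobian

namespace Fermat.Agent.S26

noncomputable section

variable {K : Type u} [Field K]

/-! ## Products, slices, curve products -/

/-- Structure morphism of the product `X ×_K Y`. -/
def prodS {X Y : Scheme.{u}} (sX : X ⟶ Spec (CommRingCat.of K))
    (sY : Y ⟶ Spec (CommRingCat.of K)) : pullback sX sY ⟶ Spec (CommRingCat.of K) :=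
  pullback.fst sX sY ≫ sX

/-- The slice `X ⟶ X × Y`, `x ↦ (x, y₀)`. -/
def sliceL {X Y : Scheme.{u}} (sX : X ⟶ Spec (CommRingCat.of K))
    {sY : Y ⟶ Spec (CommRingCat.of K)} (y₀ : Pts sY) : X ⟶ pullback sX sY :=
  pullback.lift (𝟙 X) (sX ≫ y₀.1) (by
    have h := y₀.2
    simp only [Category.id_comp, Category.assoc]
    rw [h, Category.comp_id])

/-- The slice `Y ⟶ X × Y`, `y ↦ (x₀, y)`. -/
def sliceR {X Y : Scheme.{u}} {sX : X ⟶ Spec (CommRingCat.of K)} (x₀ : Pts sX)
    (sY : Y ⟶ Spec (CommRingCat.of K)) : Y ⟶ pullback sX sY :=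
  pullback.lift (sY ≫ x₀.1) (𝟙 Y) (by
    have h := x₀.2
    simp only [Category.id_comp, Category.assoc]
    rw [h, Category.comp_id])

/-- `C` is a smooth proper (integral) curve over `K`. -/
structure IsSmoothProperCurve {C : Scheme.{u}} (sC : C ⟶ Spec (CommRingCat.of K)) : Prop where
  integral : IsIntegral C
  proper : IsProper sC
  smooth : SmoothOfRelativeDimension 1 sC

/-- `X` is (isomorphic to) a finite product of smooth proper curves over `K`. -/
inductive IsCurveProd : (X : Scheme.{u}) → (X ⟶ Spec (CommRingCat.of K)) → Prop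
  | pt (X : Scheme.{u}) (sX : X ⟶ Spec (CommRingCat.of K)) (h : IsIso sX) : IsCurveProd X sX
  | prod (C : Scheme.{u}) (sC : C ⟶ Spec (CommRingCat.of K))
      (X' : Scheme.{u}) (sX' : X' ⟶ Spec (CommRingCat.of K))
      (hC : IsSmoothProperCurve sC) (hX' : IsCurveProd X' sX')
      (X : Scheme.{u}) (sX : X ⟶ Spec (CommRingCat.of K))
      (e : X ≅ pullback sC sX') (he : e.hom ≫ prodS sC sX' = sX) : IsCurveProd X sX

theorem sliceR_prodS {X Y : Scheme.{u}} {sX : X ⟶ Spec (CommRingCat.of K)} (x₀ : Pts sX)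
    (sY : Y ⟶ Spec (CommRingCat.of K)) : sliceR x₀ sY ≫ prodS sX sY = sY := by
  have h := x₀.2
  simp only [sliceR, prodS, pullback.lift_fst_assoc, Category.assoc]
  rw [h, Category.comp_id]

theorem sliceL_prodS {X Y : Scheme.{u}} (sX : X ⟶ Spec (CommRingCat.of K))
    {sY : Y ⟶ Spec (CommRingCat.of K)} (y₀ : Pts sY) : sliceL sX y₀ ≫ prodS sX sY = sX := by
  simp only [sliceL, prodS, pullback.lift_fst_assoc, Category.id_comp]

/-- The coordinate plane `X × Z ⟶ X × (Y × Z)`, `(x, z) ↦ (x, y₀, z)`. -/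
def planeXZ {X Y Z : Scheme.{u}} (sX : X ⟶ Spec (CommRingCat.of K))
    {sY : Y ⟶ Spec (CommRingCat.of K)} (y₀ : Pts sY) (sZ : Z ⟶ Spec (CommRingCat.of K)) :
    pullback sX sZ ⟶ pullback sX (prodS sY sZ) :=
  pullback.map sX sZ sX (prodS sY sZ) (𝟙 X) (sliceR y₀ sZ) (𝟙 _)
    (by simp) (by rw [sliceR_prodS, Category.comp_id])

/-- The coordinate plane `X × Y ⟶ X × (Y × Z)`, `(x, y) ↦ (x, y, z₀)`. -/
def planeXY {X Y Z : Scheme.{u}} (sX : X ⟶ Spec (CommRingCat.of K))
    (sY : Y ⟶ Spec (CommRingCat.of K)) {sZ : Z ⟶ Spec (CommRingCat.of K)} (z₀ : Pts sZ) :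
    pullback sX sY ⟶ pullback sX (prodS sY sZ) :=
  pullback.map sX sY sX (prodS sY sZ) (𝟙 X) (sliceL sY z₀) (𝟙 _)
    (by simp) (by rw [sliceL_prodS, Category.comp_id])

/-- The cube property for three pointed varieties: a Cartier divisor class on `X × (Y × Z)`
which is trivial on the three coordinate planes is trivial. -/
def CubeProp3 {X Y Z : Scheme.{u}} (sX : X ⟶ Spec (CommRingCat.of K))
    (sY : Y ⟶ Spec (CommRingCat.of K)) (sZ : Z ⟶ Spec (CommRingCat.of K))
    (x₀ : Pts sX) (y₀ : Pts sY) (z₀ : Pts sZ)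
    [IsIntegral X] [IsIntegral Y] [IsIntegral Z]
    [IsIntegral (pullback sY sZ)] [IsIntegral (pullback sX sZ)] [IsIntegral (pullback sX sY)]
    [IsIntegral (pullback sX (prodS sY sZ))] : Prop :=
  ∀ M : Fam (pullback sX (prodS sY sZ)), M.IsCartier →
    Fam.LinEquiv (Fam.pullc (sliceR x₀ (prodS sY sZ)) M) 1 →
    Fam.LinEquiv (Fam.pullc (planeXZ sX y₀ sZ) M) 1 →
    Fam.LinEquiv (Fam.pullc (planeXY sX sY z₀) M) 1 →
    Fam.LinEquiv M 1

/-- `φ : Y ⟶ X` is dominant and `K(Y)` is a finite extension of `K(X)` (via `φ^*`) of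
degree `N`. -/
def IsGenFiniteOfDegree {X Y : Scheme.{u}} [IsIntegral X] [IsIntegral Y] (φ : Y ⟶ X) (N : ℕ) :
    Prop :=
  φ.base (genericPoint Y) = genericPoint X ∧
    ∃ ι : X.functionField →+* Y.functionField, (∀ v, ι v = pullFun φ v) ∧
      (letI := ι.toAlgebra
       Module.Finite X.functionField Y.functionField ∧
        Module.finrank X.functionField Y.functionField = N)

/-! ## P14 SEESAW, P15 CUBE3 (Step VII) -/

/-! ## P10 FORMAL: REDUCE, CUBEX, QUAD (Steps V - VI) -/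

section AV

variable [IsAlgClosed K] {A : Scheme.{u}} {f : A ⟶ Spec (CommRingCat.of K)}

theorem addMap_comp (L : RelativeGroupLaw K f) {T : Scheme.{u}} (α β : T ⟶ A)
    (h : α ≫ f = β ≫ f) : addMap L α β h ≫ f = α ≫ f :=
  (L.mul (α ≫ f) ⟨α, rfl⟩ ⟨β, h.symm⟩).2

/-- The cube expression `Θ_X(α, β, γ)(D)`:
`(α+β+γ)^*D - (α+β)^*D - (α+γ)^*D - (β+γ)^*D + α^*D + β^*D + γ^*D`. -/
def thetaFam [IsIntegral A] (L : RelativeGroupLaw K f) {X : Scheme.{u}} [IsIntegral X]
    {sX : X ⟶ Spec (CommRingCat.of K)} (α β γ : X ⟶ A)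
    (hα : α ≫ f = sX) (hβ : β ≫ f = sX) (hγ : γ ≫ f = sX) (D : Fam A) : Fam X :=
  Fam.pullc (addMap L (addMap L α β (hα.trans hβ.symm)) γ
      ((addMap_comp L α β _).trans (hα.trans hγ.symm))) D
    * (Fam.pullc (addMap L α β (hα.trans hβ.symm)) D)⁻¹
    * (Fam.pullc (addMap L α γ (hα.trans hγ.symm)) D)⁻¹
    * (Fam.pullc (addMap L β γ (hβ.trans hγ.symm)) D)⁻¹
    * Fam.pullc α D * Fam.pullc β D * Fam.pullc γ D

/-! ## P8 CURVES -/

end AV

/-! ## P9 NORM -/

end

end Fermat.Agent.S26
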