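import Fermat.Statements.S26

/-!
# S26: shared definitions (FROZEN interface; lead helper3926)

Conventions (see BOARD.md on origin/helper3926):
* a "variety" is an integral scheme `X` with a structure morphism `s : X ⟶ Spec K`
  (separated, finite type); hypotheses are passed as instances / explicit arguments;
* `localRing X x` is the local ring at the (arbitrary) point `x`, as a subring of the function field;
* a Cartier divisor is represented by a FAMILY OF LOCAL EQUATIONS `D : Fam X = X → K(X)ˣ`
  (`D x` = a local equation at `x`, so `D` effective iff `D x ∈ localRing X x` for all `x`);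
  the group law is pointwise multiplication (`D * D'`, `D ^ k`, `1`); two families give the
  same divisor iff `Fam.Same`; no quotient is taken anywhere.
-/

set_option autoImplicit false

universe u

open CategoryTheory AlgebraicGeometry

namespace Fermat.Agent.S26

noncomputable section

variable {K : Type u} [Field K]

/-- The local ring of the integral scheme `X` at the point `x`, as a subring of the function
field. -/
def localRing (X : Scheme.{u}) [IsIntegral X] (x : X) : Subring X.functionField :=
  (algebraMap (X.presheaf.stalk x) X.functionField).range

/-- `u` is a unit of the local ring at `x`. -/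
def IsUnitAt {X : Scheme.{u}} [IsIntegral X] (x : X) (u : X.functionField) : Prop :=
  u ∈ localRing X x ∧ u⁻¹ ∈ localRing X x

/-- Families of local equations. -/
abbrev Fam (X : Scheme.{u}) [IsIntegral X] : Type u := X → (X.functionField)ˣ

namespace Fam

variable {X : Scheme.{u}} [IsIntegral X]

/-- The family is locally principal, i.e. defines a Cartier divisor. -/
def IsCartier (D : Fam X) : Prop :=
  ∀ x : X, ∃ U : X.Opens, x ∈ U ∧
    ∀ y ∈ U, IsUnitAt y (((D y / D x : (X.functionField)ˣ)) : X.functionField)

/-- The divisor is effective. -/
def IsEffective (D : Fam X) : Prop :=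
  ∀ x : X, ((D x : (X.functionField)ˣ) : X.functionField) ∈ localRing X x

/-- Two families define the same Cartier divisor. -/
def Same (D D' : Fam X) : Prop :=
  ∀ x : X, IsUnitAt x (((D x / D' x : (X.functionField)ˣ)) : X.functionField)

/-- The principal divisor of `f` (constant family). -/
def const (f : (X.functionField)ˣ) : Fam X := fun _ => f

/-- Linear equivalence: `D = D' + div f` for some `f`. -/
def LinEquiv (D D' : Fam X) : Prop :=
  ∃ f : (X.functionField)ˣ, Same D (D' * const f)

/-- The underlying set of the Riemann-Roch space `L(D) = {f | div f + D ≥ 0}`. -/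
def LSet (D : Fam X) : Set X.functionField :=
  {f | ∀ x : X, f * ((D x : (X.functionField)ˣ) : X.functionField) ∈ localRing X x}

/-- The point `x` lies in the support of `D`. -/
def InSupp (D : Fam X) (x : X) : Prop :=
  ¬ IsUnitAt x ((D x : (X.functionField)ˣ) : X.functionField)

end Fam

section FunctionFieldAlgebra

variable {X : Scheme.{u}} [IsIntegral X] (s : X ⟶ Spec (CommRingCat.of K))

instance instNonemptyTopOpens : Nonempty ((⊤ : X.Opens) : Type u) :=
  ⟨⟨genericPoint X, trivial⟩⟩

/-- The ring homomorphism `K → K(X)` given by the structure morphism. -/
def constHom : K →+* X.functionField :=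
  (X.germToFunctionField ⊤).hom.comp
    (s.appTop.hom.comp (Scheme.ΓSpecIso (CommRingCat.of K)).inv.hom)

/-- The function field of `X` with its `K`-algebra structure coming from `s`. -/
def FF (_s : X ⟶ Spec (CommRingCat.of K)) : Type u := X.functionField

instance : Field (FF s) := inferInstanceAs (Field X.functionField)

instance : Algebra K (FF s) := (constHom s).toAlgebra

/-- Constants are regular at every point. -/
theorem constHom_mem_localRing (c : K) (x : X) : constHom s c ∈ localRing X x := by
  refine ⟨X.presheaf.germ ⊤ x trivial
    (s.appTop.hom ((Scheme.ΓSpecIso (CommRingCat.of K)).inv.hom c)), ?_⟩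
  exact Scheme.algebraMap_germ_eq_germToFunctionField X (U := ⊤) (x := x) trivial _

/-- The Riemann-Roch space `L(D)` as a `K`-subspace of the function field. -/
def LSpace (D : Fam X) : Submodule K (FF s) where
  carrier := D.LSet
  zero_mem' := fun x => by
    show (0 : X.functionField) * _ ∈ localRing X x
    rw [zero_mul]; exact Subring.zero_mem _
  add_mem' := fun {a b} ha hb x => by
    show ((id a : X.functionField) + (id b : X.functionField)) * _ ∈ localRing X x
    rw [add_mul]; exact Subring.add_mem _ (ha x) (hb x)
  smul_mem' := fun c a ha x => by
    show (constHom s c * (id a : X.functionField)) * _ ∈ localRing X x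
    rw [mul_assoc]; exact Subring.mul_mem _ (constHom_mem_localRing s c x) (ha x)

theorem mem_LSpace {D : Fam X} {f : FF s} :
    f ∈ LSpace s D ↔ ∀ x : X, (id f : X.functionField) * ((D x : (X.functionField)ˣ) :
      X.functionField) ∈ localRing X x := Iff.rfl

end FunctionFieldAlgebra

section Pullback

variable {X Y : Scheme.{u}} [IsIntegral X] [IsIntegral Y]

/-- Pullback of rational functions along `φ : Y ⟶ X`: the local homomorphism
`O_{X, φ(η_Y)} → K(Y)`, extended by `0` to functions that are not regular at `φ(η_Y)`. -/
def pullFun (φ : Y ⟶ X) (u : X.functionField) : Y.functionField :=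
  open Classical in
  if h : u ∈ localRing X (φ.base (genericPoint Y)) then
    (φ.stalkMap (genericPoint Y)).hom (Classical.choose h)
  else 0

/-- Auxiliary: make a unit out of a (hopefully nonzero) element, junk value `1`. -/
def toUnit {F : Type u} [Field F] (v : F) : Fˣ :=
  open Classical in if h : v = 0 then 1 else Units.mk0 v h

/-- Divisor-level pullback `φ^* D` of a family of local equations; it is the honest pullback
whenever `φ(η_Y) ∉ Supp D` (always the case for dominant `φ`), and junk otherwise. -/
def Fam.pullback (φ : Y ⟶ X) (D : Fam X) : Fam Y :=
  fun y => toUnit (pullFun φ ((D (φ.base y) : (X.functionField)ˣ) : X.functionField))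

/-- Class-level pullback: first move `D` away from `φ(η_Y)` (divide by the principal divisor of
the local equation at `φ(η_Y)`), then pull back.  Represents `φ^*[D]` in `Pic Y` for every
morphism `φ` and every Cartier `D`. -/
def Fam.pullc (φ : Y ⟶ X) (D : Fam X) : Fam Y :=
  Fam.pullback φ (D * (Fam.const (D (φ.base (genericPoint Y))))⁻¹)

end Pullback

end

end Fermat.Agent.S26
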