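import Mathlib

/-!
# S26 (helper7276): localisations of smooth algebras over a field are integrally closed domains

Interface-free commutative algebra (Mathlib only).

* `isField_of_equiv_pi` : a local ring `R` that is integrally closed in an `R`-algebra `N` which is
  (as a ring) a finite product of fields and into which `R` injects: then `N` is a field.
* `isDomain_and_isIntegrallyClosed_of_isField` : if moreover `N` is a localisation of `R`, then `R`
  is an integrally closed domain.
* `etale_localization` : `P` an integrally closed domain, `T` an étale `P`-algebra, `q` a prime of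
  `T`: then `T_q` is an integrally closed domain.
* `standardSmooth_localization`, `smooth_localization` : the same for (standard) smooth algebras
  over a field.
-/

set_option autoImplicit false

open TensorProduct

namespace Fermat.Agent.S26.SmoothNormal7276

universe u

section idem

variable {R : Type*} [CommRing R]

/-- In a local ring, idempotents are trivial. -/
theorem eq_zero_or_eq_one_of_idem [IsLocalRing R] {r : R} (h : r * r = r) : r = 0 ∨ r = 1 := by
  rcases IsLocalRing.isUnit_or_isUnit_one_sub_self r with hr | hr
  · right
    have h1 : r * (r - 1) = 0 := by rw [mul_sub, h, mul_one, sub_self]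
    have h2 := (hr.mul_right_eq_zero).mp h1
    exact sub_eq_zero.mp h2
  · left
    have h1 : (1 - r) * r = 0 := by rw [sub_mul, h, one_mul, sub_self]
    exact (hr.mul_right_eq_zero).mp h1

end idem

section core

variable {R N : Type*} [CommRing R] [CommRing N] [Algebra R N]

/-- A local ring `R`, integrally closed in an `R`-algebra `N` into which it injects and which is a
finite product of fields: then `N` is a field. -/
theorem isField_of_equiv_pi [IsLocalRing R] (hinj : Function.Injective (algebraMap R N))
    (hic : ∀ y : N, IsIntegral R y → ∃ r : R, algebraMap R N r = y)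
    {I : Type*} [Finite I] {A : I → Type*} [∀ i, Field (A i)] (φ : N ≃+* (Π i, A i)) :
    IsField N := by
  classical
  -- the idempotents of `N` attached to the factors
  have key : ∀ i : I, φ.symm (Pi.single i 1) = 1 := by
    intro i
    set e : N := φ.symm (Pi.single i 1) with he
    have hee : e * e = e := by
      rw [he, ← map_mul, ← Pi.single_mul, mul_one]
    have hint : IsIntegral R e := by
      refine ⟨Polynomial.X ^ 2 - Polynomial.X, Polynomial.monic_X_pow_sub (by simp), ?_⟩
      simp [pow_two, hee]
    obtain ⟨r, hr⟩ := hic e hint
    have hrr : r * r = r := by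
      apply hinj
      rw [map_mul, hr, hee]
    rcases eq_zero_or_eq_one_of_idem hrr with h0 | h1
    · exfalso
      rw [h0, map_zero] at hr
      have h2 : (Pi.single i 1 : Π i, A i) = 0 := by
        have := congrArg φ hr
        rw [map_zero, he, RingEquiv.apply_symm_apply] at this
        exact this.symm
      have h3 := congrFun h2 i
      simp at h3
    · rw [h1, map_one] at hr
      exact hr.symm
  have hsub : Subsingleton I := by
    refine ⟨fun i j => ?_⟩
    by_contra hij
    have h2 : (Pi.single i 1 : Π i, A i) = 1 := by
      have := congrArg φ (key i)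
      rwa [RingEquiv.apply_symm_apply, map_one] at this
    have h3 := congrFun h2 j
    rw [Pi.single_eq_of_ne (Ne.symm hij)] at h3
    simp at h3
  have hne : Nonempty I := by
    by_contra hI
    rw [not_nonempty_iff] at hI
    have h01 : (0 : N) = 1 := φ.injective (Subsingleton.elim _ _)
    have : (0 : R) = 1 := hinj (by rw [map_zero, map_one, h01])
    exact zero_ne_one this
  obtain ⟨i₀⟩ := hne
  have : Unique I := ⟨⟨i₀⟩, fun j => Subsingleton.elim _ _⟩
  exact (φ.trans (RingEquiv.piUnique A)).toMulEquiv.isField (Field.toIsField (A default))

/-- If `R` injects into a field `N`, is integrally closed in it, and `N` is a localisation of `R`,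
then `R` is an integrally closed domain. -/
theorem isDomain_and_isIntegrallyClosed_of_isField (hN : IsField N)
    (hinj : Function.Injective (algebraMap R N))
    (hic : ∀ y : N, IsIntegral R y → ∃ r : R, algebraMap R N r = y)
    (M : Submonoid R) [IsLocalization M N] :
    IsDomain R ∧ IsIntegrallyClosed R := by
  let _ := hN.toField
  have hdom : IsDomain R := hinj.isDomain (algebraMap R N)
  have : FaithfulSMul R N := (faithfulSMul_iff_algebraMap_injective R N).mpr hinj
  have hfr : IsFractionRing R N := by
    refine IsFractionRing.of_field (R := R) (K := N) fun z => ?_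
    obtain ⟨⟨x, s⟩, hxs⟩ := IsLocalization.surj M z
    refine ⟨x, s, ?_⟩
    have hs : algebraMap R N s ≠ 0 := (IsLocalization.map_units N s).ne_zero
    rw [eq_div_iff hs]
    exact hxs
  exact ⟨hdom, (isIntegrallyClosed_iff N).mpr fun {x} hx => hic x hx⟩

end core

section etale

variable (P : Type u) [CommRing P] [IsDomain P] [IsIntegrallyClosed P]
variable (R : Type u) [CommRing R] [Algebra P R]

omit [IsDomain P] in
/-- The image of `R ⊗[P] integralClosure P E` in `R ⊗[P] E` consists of elements `r ⊗ 1` when `P`
is integrally closed with fraction field `E`. -/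
theorem map_val_mem_range (E : Type u) [Field E] [Algebra P E] [IsFractionRing P E]
    (z : R ⊗[P] integralClosure P E) :
    ∃ r : R, algebraMap R (R ⊗[P] E) r =
      Algebra.TensorProduct.map (AlgHom.id R R) (integralClosure P E).val z := by
  induction z with
  | zero => exact ⟨0, by simp⟩
  | add x y hx hy =>
    obtain ⟨a, ha⟩ := hx
    obtain ⟨b, hb⟩ := hy
    exact ⟨a + b, by rw [map_add, map_add, ha, hb]⟩
  | tmul r x =>
    obtain ⟨p, hp⟩ := IsIntegrallyClosed.isIntegral_iff.mp x.2
    refine ⟨p • r, ?_⟩
    rw [Algebra.TensorProduct.map_tmul, Algebra.TensorProduct.algebraMap_apply, AlgHom.id_apply,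
      Subalgebra.val_apply, ← hp, Algebra.algebraMap_eq_smul_one (A := E) p,
      TensorProduct.tmul_smul]
    simp [TensorProduct.smul_tmul']

omit [IsDomain P] in
/-- **Core statement**: a local, flat, formally étale, essentially finite type algebra `R` over an
integrally closed domain `P` for which base change to `R` preserves the integral closure of `P` in
its fraction field, is an integrally closed domain. -/
theorem core (E : Type u) [Field E] [Algebra P E] [IsFractionRing P E]
    [IsLocalRing R] [Module.Flat P R] [Algebra.FormallyEtale P R] [Algebra.EssFiniteType P R]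
    (hsurj : Function.Surjective (TensorProduct.toIntegralClosure P R E)) :
    IsDomain R ∧ IsIntegrallyClosed R := by
  have hinj : Function.Injective (algebraMap R (R ⊗[P] E)) :=
    Algebra.TensorProduct.includeLeft_injective (S := R) (IsFractionRing.injective P E)
  have hic : ∀ y : R ⊗[P] E, IsIntegral R y → ∃ r : R, algebraMap R (R ⊗[P] E) r = y := by
    intro y hy
    obtain ⟨z, hz⟩ := hsurj ⟨y, hy⟩
    obtain ⟨r, hr⟩ := map_val_mem_range P R E z
    refine ⟨r, hr.trans ?_⟩
    have := congrArg Subtype.val hz
    exact this
  obtain ⟨I, _, A, _, _, e, -⟩ :=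
    (Algebra.FormallyEtale.iff_exists_algEquiv_prod E (E ⊗[P] R)).mp inferInstance
  let φ : (R ⊗[P] E) ≃+* (Π i, A i) :=
    (Algebra.TensorProduct.comm P R E).toRingEquiv.trans e.toRingEquiv
  have hN : IsField (R ⊗[P] E) := isField_of_equiv_pi hinj hic φ
  exact isDomain_and_isIntegrallyClosed_of_isField hN hinj hic
    (Algebra.algebraMapSubmonoid R (nonZeroDivisors P))

end etale

section main

/-- **Étale algebras over an integrally closed domain are normal**: every localisation at a prime
is an integrally closed domain. -/
theorem etale_localization (P : Type u) [CommRing P] [IsDomain P] [IsIntegrallyClosed P]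
    (T : Type u) [CommRing T] [Algebra P T] [Algebra.Etale P T] (q : Ideal T) [q.IsPrime] :
    IsDomain (Localization.AtPrime q) ∧ IsIntegrallyClosed (Localization.AtPrime q) := by
  have h1 : Module.Flat T (Localization.AtPrime q) :=
    IsLocalization.flat (Localization.AtPrime q) q.primeCompl
  have h2 : Module.Flat P (Localization.AtPrime q) := Module.Flat.trans P T (Localization.AtPrime q)
  have h3 : Algebra.FormallyEtale T (Localization.AtPrime q) :=
    Algebra.FormallyEtale.of_isLocalization q.primeCompl
  have h4 : Algebra.FormallyEtale P (Localization.AtPrime q) :=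
    Algebra.FormallyEtale.comp P T (Localization.AtPrime q)
  have hb : Function.Bijective
      (TensorProduct.toIntegralClosure P (Localization.AtPrime q) (FractionRing P)) :=
    TensorProduct.toIntegralClosure_bijective_of_tower (S := T)
      TensorProduct.toIntegralClosure_bijective_of_smooth
      (TensorProduct.toIntegralClosure_bijective_of_isLocalization q.primeCompl)
  exact core P (Localization.AtPrime q) (FractionRing P) hb.2

/-- **Smooth algebras over a field are normal**: every localisation at a prime is an integrally
closed domain. -/
theorem smooth_localization (K : Type u) [Field K] (B : Type u) [CommRing B] [Algebra K B]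
    [Algebra.Smooth K B] (q : Ideal B) [q.IsPrime] :
    IsDomain (Localization.AtPrime q) ∧ IsIntegrallyClosed (Localization.AtPrime q) := by
  obtain ⟨f, hfq, n, _, _, _⟩ :=
    Algebra.IsSmoothAt.exists_isStandardEtale_mvPolynomial (R := K) (p := q)
  have hdisj : Disjoint (Submonoid.powers f : Set B) (q : Set B) :=
    (Ideal.disjoint_powers_iff_notMem_of_isPrime _).mpr hfq
  have hq' : (Ideal.map (algebraMap B (Localization.Away f)) q).IsPrime :=
    IsLocalization.isPrime_of_isPrime_disjoint (.powers f) _ _ ‹_› hdisj
  have hcomap : (Ideal.map (algebraMap B (Localization.Away f)) q).comap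
      (algebraMap B (Localization.Away f)) = q :=
    IsLocalization.under_map_of_isPrime_disjoint (.powers f) _ ‹_› hdisj
  obtain ⟨hd, hi⟩ := etale_localization (MvPolynomial (Fin n) K) (Localization.Away f)
    (Ideal.map (algebraMap B (Localization.Away f)) q)
  have hloc : IsLocalization q.primeCompl
      (Localization.AtPrime (Ideal.map (algebraMap B (Localization.Away f)) q)) := by
    have h := IsLocalization.isLocalization_isLocalization_atPrime_isLocalization
      (Submonoid.powers f)
      (Localization.AtPrime (Ideal.map (algebraMap B (Localization.Away f)) q))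
      (Ideal.map (algebraMap B (Localization.Away f)) q)
    have hpc : ((Ideal.map (algebraMap B (Localization.Away f)) q).comap
        (algebraMap B (Localization.Away f))).primeCompl = q.primeCompl :=
      Submonoid.ext fun x => by
        rw [Ideal.mem_primeCompl_iff, Ideal.mem_primeCompl_iff, hcomap]
    rw [← hpc]
    exact h
  let e : Localization.AtPrime q ≃ₐ[B]
      Localization.AtPrime (Ideal.map (algebraMap B (Localization.Away f)) q) :=
    IsLocalization.algEquiv q.primeCompl _ _
  exact ⟨e.toRingEquiv.toMulEquiv.isDomain, IsIntegrallyClosed.of_equiv e.symm.toRingEquiv⟩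

end main

section scheme

open AlgebraicGeometry CategoryTheory

/-- **Smooth schemes over a field are normal**: every stalk is an integrally closed domain. -/
theorem stalk_isDomain_and_isIntegrallyClosed {K : Type u} [Field K] {X : Scheme.{u}}
    (f : X ⟶ Spec (CommRingCat.of K)) [Smooth f] (x : X) :
    IsDomain (X.presheaf.stalk x) ∧ IsIntegrallyClosed (X.presheaf.stalk x) := by
  obtain ⟨V, hV, hxV⟩ : ∃ V : X.Opens, IsAffineOpen V ∧ x ∈ V := by
    obtain ⟨_, ⟨V, hV, rfl⟩, hxV, -⟩ :=
      X.isBasis_affineOpens.exists_subset_of_mem_open (Set.mem_univ x) isOpen_univ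
    exact ⟨V, hV, hxV⟩
  have hsm : (f.appLE ⊤ V le_top).hom.Smooth :=
    HasRingHomProperty.appLE (P := @Smooth) f inferInstance ⟨⊤, isAffineOpen_top _⟩ ⟨V, hV⟩ le_top
  have hiso : ((Scheme.ΓSpecIso (CommRingCat.of K)).inv.hom).Smooth :=
    RingHom.Smooth.of_bijective
      (ConcreteCategory.bijective_of_isIso (Scheme.ΓSpecIso (CommRingCat.of K)).inv)
  have hφ := hiso.comp hsm
  algebraize [(f.appLE ⊤ V le_top).hom.comp (Scheme.ΓSpecIso (CommRingCat.of K)).inv.hom]
  let _ := X.presheaf.algebra_section_stalk (⟨x, hxV⟩ : V)
  have hloc := hV.isLocalization_stalk ⟨x, hxV⟩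
  obtain ⟨hd, hi⟩ := smooth_localization K Γ(X, V) (hV.primeIdealOf ⟨x, hxV⟩).asIdeal
  let e : Localization.AtPrime (hV.primeIdealOf ⟨x, hxV⟩).asIdeal ≃ₐ[Γ(X, V)]
      X.presheaf.stalk x :=
    IsLocalization.algEquiv (hV.primeIdealOf ⟨x, hxV⟩).asIdeal.primeCompl _ _
  exact ⟨e.symm.toRingEquiv.toMulEquiv.isDomain, IsIntegrallyClosed.of_equiv e.toRingEquiv⟩

end scheme

end Fermat.Agent.S26.SmoothNormal7276
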