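import Fermat.Agent.S26.AVDefs
import Fermat.Agent.S26.VAR.GeomP6_1456
import Fermat.Agent.S26.UFD.StalkUfd
import Fermat.Agent.S26.DIV.Exports6464

/-!
# S26: core geometric exports of P4 (UFD), P5 (DIV), P6 (VAR)  (FROZEN statements; lead)

These are the general facts used across packages.  Sub-leads of P4/P5/P6 add further API in
their own files (`Fermat/Agent/S26/<PKG>/...`); what is stated here is frozen.
-/

set_option autoImplicit false

universe u

open CategoryTheory CategoryTheory.Limits AlgebraicGeometry NeronModelInfra GoodReductionJacobian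

namespace Fermat.Agent.S26

noncomputable section

variable {K : Type u} [Field K] [IsAlgClosed K]

/-! ## P6 VAR -/

/-- P6 EXPORT: over an algebraically closed field, the product of two integral schemes of finite
type is integral. -/
theorem isIntegral_prod {X Y : Scheme.{u}} (sX : X ⟶ Spec (CommRingCat.of K))
    (sY : Y ⟶ Spec (CommRingCat.of K)) [IsIntegral X] [IsIntegral Y]
    [LocallyOfFiniteType sX] [LocallyOfFiniteType sY] : IsIntegral (pullback sX sY) := by
  exact VAR.H1456.isIntegral_prod sX sY

/-- P6 EXPORT: local rings of a smooth integral `K`-scheme are integrally closed. -/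
theorem stalk_isIntegrallyClosed_of_smooth {X : Scheme.{u}} [IsIntegral X]
    (sX : X ⟶ Spec (CommRingCat.of K)) [Smooth sX] (x : X) :
    IsIntegrallyClosed (X.presheaf.stalk x) := by
  exact VAR.H1456.stalk_isIntegrallyClosed_of_smooth sX x

/-- P6 EXPORT: `localRing X x` is integrally closed in the function field (smooth case). -/
theorem localRing_integrallyClosed_of_smooth {X : Scheme.{u}} [IsIntegral X]
    (sX : X ⟶ Spec (CommRingCat.of K)) [Smooth sX] (x : X) (u : X.functionField)
    (hu : IsIntegral (localRing X x) u) : u ∈ localRing X x := by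
  exact VAR.H1456.localRing_integrallyClosed_of_smooth sX x u hu

/-- P6 EXPORT: the function field of a variety is a finitely generated field extension. -/
theorem essFiniteType_FF {X : Scheme.{u}} [IsIntegral X] (sX : X ⟶ Spec (CommRingCat.of K))
    [LocallyOfFiniteType sX] : Algebra.EssFiniteType K (FF sX) := by
  exact VAR.H1456.essFiniteType_FF sX

/-- P6 EXPORT (valuative criterion, existence of a centre): on a proper variety every valuation
subring of the function field containing the constants contains the local ring of some point. -/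
theorem exists_center {X : Scheme.{u}} [IsIntegral X] (sX : X ⟶ Spec (CommRingCat.of K))
    [IsProper sX] (O : ValuationSubring X.functionField)
    (hO : ∀ c : K, constHom sX c ∈ O) :
    ∃ x : X, localRing X x ≤ O.toSubring := by
  exact VAR.H1456.exists_center sX O hO

/-- P6 EXPORT: for a dominant morphism, `pullFun` is an injective ring homomorphism. -/
theorem exists_ringHom_pullFun {X Y : Scheme.{u}} [IsIntegral X] [IsIntegral Y] (φ : Y ⟶ X)
    (hφ : φ.base (genericPoint Y) = genericPoint X) :
    ∃ ι : X.functionField →+* Y.functionField, ∀ v, ι v = pullFun φ v := by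
  exact VAR.H1456.exists_ringHom_pullFun φ hφ

/-- P6 EXPORT: `pullFun` is compatible with the constants. -/
theorem pullFun_constHom {X Y : Scheme.{u}} [IsIntegral X] [IsIntegral Y]
    (sX : X ⟶ Spec (CommRingCat.of K)) (sY : Y ⟶ Spec (CommRingCat.of K))
    (φ : Y ⟶ X) (hφ : φ ≫ sX = sY) (c : K) : pullFun φ (constHom sX c) = constHom sY c := by
  exact VAR.H1456.pullFun_constHom sX sY φ hφ c

/-- P6 EXPORT: `pullFun` is contravariantly functorial on functions regular at the image of
the generic point. -/
theorem pullFun_comp {X Y Z : Scheme.{u}} [IsIntegral X] [IsIntegral Y] [IsIntegral Z]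
    (ψ : Z ⟶ Y) (φ : Y ⟶ X) (v : X.functionField)
    (hv : v ∈ localRing X ((ψ ≫ φ).base (genericPoint Z))) :
    pullFun (ψ ≫ φ) v = pullFun ψ (pullFun φ v) := by
  exact VAR.H1456.pullFun_comp ψ φ v hv

/-- P6 EXPORT: the local homomorphism property: `pullFun φ` maps the local ring at `φ y` into
the local ring at `y`, and units to units. -/
theorem pullFun_mem_localRing {X Y : Scheme.{u}} [IsIntegral X] [IsIntegral Y] (φ : Y ⟶ X)
    (y : Y) (v : X.functionField) (hv : v ∈ localRing X (φ.base y)) :
    pullFun φ v ∈ localRing Y y ∧ (IsUnitAt (φ.base y) v → IsUnitAt y (pullFun φ v)) := by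
  exact VAR.H1456.pullFun_mem_localRing φ y v hv

/-! ## P4 UFD -/

/-- P4 EXPORT: local rings of a smooth integral `K`-scheme are unique factorisation domains. -/
theorem stalk_ufd_of_smooth {X : Scheme.{u}} [IsIntegral X]
    (sX : X ⟶ Spec (CommRingCat.of K)) [Smooth sX] (x : X) :
    UniqueFactorizationMonoid (X.presheaf.stalk x) := by
  exact UFD.stalk_ufd_of_smooth sX x

/-! ## P5 DIV: the calculus of `Fam.pullc` (classes) and `Fam.pullback` -/

/-- P5 EXPORT: linear equivalence is an equivalence relation compatible with products. -/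
theorem linEquiv_equivalence {X : Scheme.{u}} [IsIntegral X] :
    Equivalence (Fam.LinEquiv (X := X)) ∧
      (∀ D₁ D₂ E₁ E₂ : Fam X, Fam.LinEquiv D₁ D₂ → Fam.LinEquiv E₁ E₂ →
        Fam.LinEquiv (D₁ * E₁) (D₂ * E₂)) ∧
      (∀ D₁ D₂ : Fam X, Fam.LinEquiv D₁ D₂ → Fam.LinEquiv D₁⁻¹ D₂⁻¹) := by
  exact DIV.linEquiv_equivalence

/-- P5 EXPORT: `pullc` of a Cartier divisor is Cartier. -/
theorem isCartier_pullc {X Y : Scheme.{u}} [IsIntegral X] [IsIntegral Y] (φ : Y ⟶ X)
    (D : Fam X) (hD : D.IsCartier) : (Fam.pullc φ D).IsCartier := by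
  exact DIV.isCartier_pullc φ D hD

/-- P5 EXPORT: `pullc` is multiplicative and respects linear equivalence (on Cartier divisors). -/
theorem pullc_mul {X Y : Scheme.{u}} [IsIntegral X] [IsIntegral Y] (φ : Y ⟶ X)
    (D E : Fam X) (hD : D.IsCartier) (hE : E.IsCartier) :
    Fam.Same (Fam.pullc φ (D * E)) (Fam.pullc φ D * Fam.pullc φ E) ∧
      Fam.Same (Fam.pullc φ D⁻¹) (Fam.pullc φ D)⁻¹ := by
  exact DIV.pullc_mul φ D E hD hE

theorem pullc_linEquiv {X Y : Scheme.{u}} [IsIntegral X] [IsIntegral Y] (φ : Y ⟶ X)
    (D E : Fam X) (hD : D.IsCartier) (hE : E.IsCartier) (h : Fam.LinEquiv D E) :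
    Fam.LinEquiv (Fam.pullc φ D) (Fam.pullc φ E) := by
  exact DIV.pullc_linEquiv φ D E hD hE h

/-- P5 EXPORT: functoriality of `pullc` on classes. -/
theorem pullc_comp {X Y Z : Scheme.{u}} [IsIntegral X] [IsIntegral Y] [IsIntegral Z]
    (ψ : Z ⟶ Y) (φ : Y ⟶ X) (D : Fam X) (hD : D.IsCartier) :
    Fam.LinEquiv (Fam.pullc (ψ ≫ φ) D) (Fam.pullc ψ (Fam.pullc φ D)) := by
  exact DIV.pullc_comp ψ φ D hD

/-- P5 EXPORT: `pullc` along the identity. -/
theorem pullc_id {X : Scheme.{u}} [IsIntegral X] (D : Fam X) (hD : D.IsCartier) :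
    Fam.LinEquiv (Fam.pullc (𝟙 X) D) D := by
  exact DIV.pullc_id D hD

/-- P5 EXPORT: if `φ(η_Y)` is not in the support of `D`, the divisor-level pullback is Cartier
and represents the class-level pullback. -/
theorem pullback_linEquiv_pullc {X Y : Scheme.{u}} [IsIntegral X] [IsIntegral Y] (φ : Y ⟶ X)
    (D : Fam X) (hD : D.IsCartier) (hsupp : ¬ D.InSupp (φ.base (genericPoint Y))) :
    (Fam.pullback φ D).IsCartier ∧ Fam.LinEquiv (Fam.pullback φ D) (Fam.pullc φ D) := by
  exact DIV.pullback_linEquiv_pullc φ D hD hsupp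

/-- P5 EXPORT: a class pulled back through a `K`-point is trivial. -/
theorem pullc_of_factors_through_point {X Y : Scheme.{u}} [IsIntegral X] [IsIntegral Y]
    (sY : Y ⟶ Spec (CommRingCat.of K)) (p : Spec (CommRingCat.of K) ⟶ X)
    (D : Fam X) (hD : D.IsCartier) : Fam.LinEquiv (Fam.pullc (sY ≫ p) D) 1 := by
  exact DIV.pullc_of_factors_through_point sY p D hD

end

end Fermat.Agent.S26
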