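import Mathlib
import Fermat.Prelude.Def_JacJ1Iface
import Fermat.Prelude.Def_GoodReductionJacobian_RelativeGroupLawKernel

set_option autoImplicit false
open CategoryTheory CategoryTheory.Limits AlgebraicGeometry NeronModelInfra GoodReductionJacobian
open MonoidalCategory CartesianMonoidalCategory MonObj
universe u

namespace Fermat.Agent.S26.Setup

variable {R : Type u} [CommRing R] {A : Scheme.{u}} {f : A ⟶ Spec (CommRingCat.of R)}

/-- `T`-points of `A`, as a type synonym carrying the group structure of `L`. -/
def Pts (_L : RelativeGroupLaw R f) (T : Over (Spec (CommRingCat.of R))) : Type u :=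
  SchemeHomOver T.hom f

noncomputable instance ptsGroup (L : RelativeGroupLaw R f) (T : Over (Spec (CommRingCat.of R))) :
    Group (Pts L T) := L.pointGroup T.hom

/-- Restriction of points along a morphism of `Spec R`-schemes, as a group homomorphism. -/
noncomputable def ptsMap (L : RelativeGroupLaw R f) {T T' : Over (Spec (CommRingCat.of R))}
    (φ : T' ⟶ T) : Pts L T →* Pts L T' :=
  MonoidHom.mk' (schemeHomOverComp φ.left (Over.w φ))
    (fun x y => L.mul_natural _ _ _ _ x y)

theorem ptsMap_apply_coe (L : RelativeGroupLaw R f) {T T' : Over (Spec (CommRingCat.of R))}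
    (φ : T' ⟶ T) (x : Pts L T) : (ptsMap L φ x).1 = φ.left ≫ x.1 := rfl

/-- The functor of points of `A` over `Spec R`, with the group structure of `L`. -/
noncomputable def pointsGrp (L : RelativeGroupLaw R f) :
    (Over (Spec (CommRingCat.of R)))ᵒᵖ ⥤ GrpCat.{u} where
  obj T := GrpCat.of (Pts L T.unop)
  map {T T'} φ := GrpCat.ofHom (ptsMap L φ.unop)
  map_id T := by
    ext x
    apply Subtype.ext
    simp [ptsMap_apply_coe]
  map_comp {T T' T''} φ ψ := by
    ext x
    apply Subtype.ext
    simp [ptsMap_apply_coe]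

/-- The functor of points is represented by `Over.mk f`. -/
noncomputable def pointsRepr (L : RelativeGroupLaw R f) :
    (pointsGrp L ⋙ forget GrpCat).RepresentableBy (Over.mk f) where
  homEquiv {T} := (schemeHomOverEquivOverHom T.hom f).symm
  homEquiv_comp {T T'} φ g := by
    apply Subtype.ext
    rfl

/-- The group object structure on `Over.mk f` induced by a relative group law. -/
@[reducible] noncomputable def grpObj (L : RelativeGroupLaw R f) : GrpObj (Over.mk f) :=
  GrpObj.ofRepresentableBy (Over.mk f) (pointsGrp L) (pointsRepr L)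


/-! ### The structure morphisms -/

/-- The unit section `e : Spec R ⟶ A`. -/
noncomputable def oneMor (L : RelativeGroupLaw R f) : Spec (CommRingCat.of R) ⟶ A :=
  (L.one (𝟙 (Spec (CommRingCat.of R)))).1

@[reassoc (attr := simp)]
theorem oneMor_comp (L : RelativeGroupLaw R f) : oneMor L ≫ f = 𝟙 _ :=
  (L.one (𝟙 (Spec (CommRingCat.of R)))).2

theorem one_coe (L : RelativeGroupLaw R f) {T : Scheme.{u}} (t : T ⟶ Spec (CommRingCat.of R)) :
    (L.one t).1 = t ≫ oneMor L := by
  have h := L.one_natural (𝟙 (Spec (CommRingCat.of R))) t t (Category.comp_id t)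
  exact (congrArg Subtype.val h).symm

/-- The multiplication morphism `m : A ×_R A ⟶ A`. -/
noncomputable def mulMor (L : RelativeGroupLaw R f) : pullback f f ⟶ A :=
  (L.mul (pullback.fst f f ≫ f) ⟨pullback.fst f f, rfl⟩
    ⟨pullback.snd f f, pullback.condition.symm⟩).1

@[reassoc (attr := simp)]
theorem mulMor_comp (L : RelativeGroupLaw R f) : mulMor L ≫ f = pullback.fst f f ≫ f :=
  (L.mul (pullback.fst f f ≫ f) ⟨pullback.fst f f, rfl⟩
    ⟨pullback.snd f f, pullback.condition.symm⟩).2

theorem mul_coe (L : RelativeGroupLaw R f) {T : Scheme.{u}} (t : T ⟶ Spec (CommRingCat.of R))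
    (x y : SchemeHomOver t f) :
    (L.mul t x y).1 = pullback.lift x.1 y.1 (x.2.trans y.2.symm) ≫ mulMor L := by
  have hψ : pullback.lift x.1 y.1 (x.2.trans y.2.symm) ≫ (pullback.fst f f ≫ f) = t := by
    rw [pullback.lift_fst_assoc, x.2]
  have h := L.mul_natural (pullback.fst f f ≫ f) t _ hψ ⟨pullback.fst f f, rfl⟩
    ⟨pullback.snd f f, pullback.condition.symm⟩
  have hx : schemeHomOverComp (pullback.lift x.1 y.1 (x.2.trans y.2.symm)) hψ
      (⟨pullback.fst f f, rfl⟩ : SchemeHomOver (pullback.fst f f ≫ f) f) = x :=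
    Subtype.ext (pullback.lift_fst _ _ _)
  have hy : schemeHomOverComp (pullback.lift x.1 y.1 (x.2.trans y.2.symm)) hψ
      (⟨pullback.snd f f, pullback.condition.symm⟩ : SchemeHomOver (pullback.fst f f ≫ f) f) = y :=
    Subtype.ext (pullback.lift_snd _ _ _)
  rw [hx, hy] at h
  exact (congrArg Subtype.val h).symm

/-- Naturality of the inverse (not a field of `RelativeGroupLaw`, but a consequence). -/
theorem inv_natural (L : RelativeGroupLaw R f) {T T' : Scheme.{u}}
    (t : T ⟶ Spec (CommRingCat.of R)) (t' : T' ⟶ Spec (CommRingCat.of R))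
    (ψ : T' ⟶ T) (hψ : ψ ≫ t = t') (x : SchemeHomOver t f) :
    schemeHomOverComp ψ hψ (L.inv t x) = L.inv t' (schemeHomOverComp ψ hψ x) := by
  let _ := L.pointGroup t'
  have h : L.mul t' (schemeHomOverComp ψ hψ (L.inv t x)) (schemeHomOverComp ψ hψ x) = L.one t' := by
    rw [← L.mul_natural, L.inv_mul_cancel, L.one_natural]
  exact eq_inv_of_mul_eq_one_left h

/-- The inversion morphism `A ⟶ A`. -/
noncomputable def invMor (L : RelativeGroupLaw R f) : A ⟶ A :=
  (L.inv f RelativeGroupLaw.idPoint).1

@[reassoc (attr := simp)]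
theorem invMor_comp (L : RelativeGroupLaw R f) : invMor L ≫ f = f :=
  (L.inv f RelativeGroupLaw.idPoint).2

theorem schemeHomOverComp_idPoint {T : Scheme.{u}} {t : T ⟶ Spec (CommRingCat.of R)}
    (x : SchemeHomOver t f) :
    schemeHomOverComp x.1 x.2 (RelativeGroupLaw.idPoint : SchemeHomOver f f) = x :=
  Subtype.ext (by simp)

theorem inv_coe (L : RelativeGroupLaw R f) {T : Scheme.{u}} (t : T ⟶ Spec (CommRingCat.of R))
    (x : SchemeHomOver t f) : (L.inv t x).1 = x.1 ≫ invMor L := by
  have h := inv_natural L f t x.1 x.2 RelativeGroupLaw.idPoint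
  rw [schemeHomOverComp_idPoint] at h
  exact (congrArg Subtype.val h).symm

theorem nsmul_coe (L : RelativeGroupLaw R f) {T : Scheme.{u}} (t : T ⟶ Spec (CommRingCat.of R))
    (n : ℕ) (x : SchemeHomOver t f) : (L.nsmul t n x).1 = x.1 ≫ L.schemeNsmul n := by
  have h := L.nsmul_natural f t x.1 x.2 n RelativeGroupLaw.idPoint
  rw [schemeHomOverComp_idPoint] at h
  exact (congrArg Subtype.val h).symm

theorem isTorsionPoint_iff (L : RelativeGroupLaw R f) {T : Scheme.{u}}
    (t : T ⟶ Spec (CommRingCat.of R)) (n : ℕ) (x : SchemeHomOver t f) :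
    L.IsTorsionPoint t n x ↔ x.1 ≫ L.schemeNsmul n = t ≫ oneMor L := by
  rw [RelativeGroupLaw.isTorsionPoint_def, ← nsmul_coe, ← one_coe]
  exact Subtype.ext_iff

/-- `nsmul` is the `n`-th power in the point group. -/
theorem nsmul_eq_pow (L : RelativeGroupLaw R f) {T : Scheme.{u}} (t : T ⟶ Spec (CommRingCat.of R))
    (n : ℕ) (x : SchemeHomOver t f) :
    L.nsmul t n x = (letI := L.pointGroup t; x ^ n) := by
  let _ := L.pointGroup t
  induction n with
  | zero => exact (pow_zero x).symm
  | succ n ih =>
    rw [RelativeGroupLaw.nsmul_succ, ih, pow_succ]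
    rfl


/-! ### Bridge to Mathlib's group objects -/

/-- The Hom-group of the group object `Over.mk f` is the point group of `L`. -/
noncomputable def homMulEquiv (L : RelativeGroupLaw R f) (T : Over (Spec (CommRingCat.of R))) :
    letI := grpObj L
    (T ⟶ Over.mk f) ≃* Pts L T :=
  letI := grpObj L
  { toEquiv := (schemeHomOverEquivOverHom T.hom f).symm
    map_mul' := fun x y =>
      (((yonedaGrpObjIsoOfRepresentableBy (Over.mk f) (pointsGrp L) (pointsRepr L)).hom.app
        (Opposite.op T)).hom.map_mul x y) }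

theorem homMulEquiv_apply_coe (L : RelativeGroupLaw R f) (T : Over (Spec (CommRingCat.of R)))
    (x : T ⟶ Over.mk f) : (homMulEquiv L T x).1 = x.left := rfl

/-- A commutative relative group law gives a commutative group object. -/
theorem isCommMonObj (L : RelativeGroupLaw R f) (hc : L.IsCommutative) :
    letI := grpObj L
    IsCommMonObj (Over.mk f) := by
  let _ := grpObj L
  rw [isCommMonObj_iff_isMulCommutative]
  intro T
  refine ⟨⟨fun x y => ?_⟩⟩
  apply (homMulEquiv L T).injective
  rw [map_mul, map_mul]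
  exact hc T.hom _ _

/-! ### Multiplication by `n` is a homomorphism (commutative case) -/

theorem nsmul_mul (L : RelativeGroupLaw R f) (hc : L.IsCommutative) {T : Scheme.{u}}
    (t : T ⟶ Spec (CommRingCat.of R)) (n : ℕ) (x y : SchemeHomOver t f) :
    L.nsmul t n (L.mul t x y) = L.mul t (L.nsmul t n x) (L.nsmul t n y) := by
  let _ := L.pointGroup t
  rw [nsmul_eq_pow, nsmul_eq_pow, nsmul_eq_pow]
  exact (Commute.mul_pow (hc t x y) n)

theorem nsmul_nsmul (L : RelativeGroupLaw R f) {T : Scheme.{u}}
    (t : T ⟶ Spec (CommRingCat.of R)) (m n : ℕ) (x : SchemeHomOver t f) :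
    L.nsmul t m (L.nsmul t n x) = L.nsmul t (n * m) x := by
  let _ := L.pointGroup t
  rw [nsmul_eq_pow, nsmul_eq_pow, nsmul_eq_pow]
  exact (pow_mul x n m).symm

theorem schemeNsmul_comp (L : RelativeGroupLaw R f) (m n : ℕ) :
    L.schemeNsmul n ≫ L.schemeNsmul m = L.schemeNsmul (n * m) := by
  have h := nsmul_coe L f m (L.nsmul f n RelativeGroupLaw.idPoint)
  rw [nsmul_nsmul] at h
  exact h.symm

theorem oneMor_schemeNsmul (L : RelativeGroupLaw R f) (n : ℕ) :
    oneMor L ≫ L.schemeNsmul n = oneMor L := by
  have h := nsmul_coe L (𝟙 _) n (L.one (𝟙 (Spec (CommRingCat.of R))))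
  rw [L.nsmul_unit] at h
  exact h.symm

/-! ### Translations -/

/-- The constant `T`-point attached to an `R`-point. -/
noncomputable def constPt {T : Scheme.{u}} (t : T ⟶ Spec (CommRingCat.of R))
    (a : SchemeHomOver (𝟙 (Spec (CommRingCat.of R))) f) : SchemeHomOver t f :=
  schemeHomOverComp t (Category.comp_id t) a

theorem constPt_coe {T : Scheme.{u}} (t : T ⟶ Spec (CommRingCat.of R))
    (a : SchemeHomOver (𝟙 (Spec (CommRingCat.of R))) f) : (constPt t a).1 = t ≫ a.1 := rfl

theorem constPt_id (a : SchemeHomOver (𝟙 (Spec (CommRingCat.of R))) f) :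
    constPt (𝟙 _) a = a := Subtype.ext (Category.id_comp _)

theorem schemeHomOverComp_constPt {T T' : Scheme.{u}} {t : T ⟶ Spec (CommRingCat.of R)}
    {t' : T' ⟶ Spec (CommRingCat.of R)} (ψ : T' ⟶ T) (hψ : ψ ≫ t = t')
    (a : SchemeHomOver (𝟙 (Spec (CommRingCat.of R))) f) :
    schemeHomOverComp ψ hψ (constPt t a) = constPt t' a := by
  apply Subtype.ext
  simp only [schemeHomOverComp_coe, constPt_coe]
  rw [← Category.assoc, hψ]

theorem constPt_mul (L : RelativeGroupLaw R f) {T : Scheme.{u}} (t : T ⟶ Spec (CommRingCat.of R))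
    (a b : SchemeHomOver (𝟙 (Spec (CommRingCat.of R))) f) :
    constPt t (L.mul (𝟙 _) a b) = L.mul t (constPt t a) (constPt t b) :=
  L.mul_natural _ _ _ _ _ _

theorem constPt_one (L : RelativeGroupLaw R f) {T : Scheme.{u}} (t : T ⟶ Spec (CommRingCat.of R)) :
    constPt t (L.one (𝟙 _)) = L.one t :=
  L.one_natural _ _ _ _

theorem constPt_inv (L : RelativeGroupLaw R f) {T : Scheme.{u}} (t : T ⟶ Spec (CommRingCat.of R))
    (a : SchemeHomOver (𝟙 (Spec (CommRingCat.of R))) f) :
    constPt t (L.inv (𝟙 _) a) = L.inv t (constPt t a) :=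
  inv_natural L _ _ _ _ _

theorem constPt_nsmul (L : RelativeGroupLaw R f) {T : Scheme.{u}} (t : T ⟶ Spec (CommRingCat.of R))
    (n : ℕ) (a : SchemeHomOver (𝟙 (Spec (CommRingCat.of R))) f) :
    constPt t (L.nsmul (𝟙 _) n a) = L.nsmul t n (constPt t a) :=
  L.nsmul_natural _ _ _ _ _ _

/-- Right translation `x ↦ x + a` by an `R`-point `a`, as a morphism `A ⟶ A`. -/
noncomputable def translMor (L : RelativeGroupLaw R f)
    (a : SchemeHomOver (𝟙 (Spec (CommRingCat.of R))) f) : A ⟶ A :=
  (L.mul f RelativeGroupLaw.idPoint (constPt f a)).1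

@[reassoc (attr := simp)]
theorem translMor_comp (L : RelativeGroupLaw R f)
    (a : SchemeHomOver (𝟙 (Spec (CommRingCat.of R))) f) : translMor L a ≫ f = f :=
  (L.mul f RelativeGroupLaw.idPoint (constPt f a)).2

/-- The effect of a translation on `T`-points. -/
theorem comp_translMor (L : RelativeGroupLaw R f)
    (a : SchemeHomOver (𝟙 (Spec (CommRingCat.of R))) f) {T : Scheme.{u}}
    (t : T ⟶ Spec (CommRingCat.of R)) (x : SchemeHomOver t f) :
    x.1 ≫ translMor L a = (L.mul t x (constPt t a)).1 := by
  have h := L.mul_natural f t x.1 x.2 RelativeGroupLaw.idPoint (constPt f a)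
  rw [schemeHomOverComp_idPoint, schemeHomOverComp_constPt] at h
  exact congrArg Subtype.val h

theorem translMor_one (L : RelativeGroupLaw R f) :
    translMor L (L.one (𝟙 _)) = 𝟙 A := by
  have h := comp_translMor L (L.one (𝟙 _)) f RelativeGroupLaw.idPoint
  rw [constPt_one, L.mul_one] at h
  simpa using h

theorem translMor_translMor (L : RelativeGroupLaw R f)
    (a b : SchemeHomOver (𝟙 (Spec (CommRingCat.of R))) f) :
    translMor L a ≫ translMor L b = translMor L (L.mul (𝟙 _) a b) := by
  have h := comp_translMor L b f ⟨translMor L a, translMor_comp L a⟩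
  rw [h]
  have h2 : (⟨translMor L a, translMor_comp L a⟩ : SchemeHomOver f f) =
      L.mul f RelativeGroupLaw.idPoint (constPt f a) := rfl
  rw [h2, L.mul_assoc, ← constPt_mul]
  rfl

/-- Translation by an `R`-point as an automorphism of `A`. -/
noncomputable def translIso (L : RelativeGroupLaw R f)
    (a : SchemeHomOver (𝟙 (Spec (CommRingCat.of R))) f) : A ≅ A where
  hom := translMor L a
  inv := translMor L (L.inv (𝟙 _) a)
  hom_inv_id := by rw [translMor_translMor, L.mul_inv_cancel, translMor_one]
  inv_hom_id := by rw [translMor_translMor, L.inv_mul_cancel, translMor_one]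

/-- Translations act on `R`-points by right multiplication. -/
theorem point_comp_translMor (L : RelativeGroupLaw R f)
    (a x : SchemeHomOver (𝟙 (Spec (CommRingCat.of R))) f) :
    x.1 ≫ translMor L a = (L.mul (𝟙 _) x a).1 := by
  rw [comp_translMor L a (𝟙 _) x, constPt_id]

/-- `[n] ∘ t_a = t_{n a} ∘ [n]` for a commutative group law. -/
theorem translMor_schemeNsmul (L : RelativeGroupLaw R f) (hc : L.IsCommutative)
    (a : SchemeHomOver (𝟙 (Spec (CommRingCat.of R))) f) (n : ℕ) :
    translMor L a ≫ L.schemeNsmul n = L.schemeNsmul n ≫ translMor L (L.nsmul (𝟙 _) n a) := by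
  have h1 := nsmul_coe L f n (L.mul f RelativeGroupLaw.idPoint (constPt f a))
  have h2 := comp_translMor L (L.nsmul (𝟙 _) n a) f (L.nsmul f n RelativeGroupLaw.idPoint)
  rw [nsmul_mul L hc, ← constPt_nsmul] at h1
  exact h1.symm.trans h2.symm


/-! ### `K`-points and closed points over an algebraically closed field -/

section AlgClosed

variable {K : Type u} [Field K] [IsAlgClosed K] {A : Scheme.{u}}
  {f : A ⟶ Spec (CommRingCat.of K)}

set_option backward.isDefEq.respectTransparency.types false in
/-- The base point (image of the unit section) of `A`. -/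
noncomputable def basePt (L : RelativeGroupLaw K f) : A :=
  (oneMor L) (IsLocalRing.closedPoint K)

set_option backward.isDefEq.respectTransparency.types false in
theorem isTorsionPoint_iff_apply [LocallyOfFiniteType f] (L : RelativeGroupLaw K f) (n : ℕ)
    (x : SchemeHomOver (𝟙 (Spec (CommRingCat.of K))) f) :
    L.IsTorsionPoint (𝟙 _) n x ↔
      (L.schemeNsmul n) (x.1 (IsLocalRing.closedPoint K)) = basePt L := by
  rw [isTorsionPoint_iff, Category.id_comp]
  constructor
  · intro h
    have := congrArg (fun φ : Spec (CommRingCat.of K) ⟶ A => φ (IsLocalRing.closedPoint K)) h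
    simp only [Scheme.Hom.comp_apply] at this
    exact this
  · intro h
    refine ext_of_apply_closedPoint_eq f ?_ ?_ ?_
    · rw [Category.assoc, L.schemeNsmul_over, x.2]
    · exact oneMor_comp L
    · rw [Scheme.Hom.comp_apply]
      exact h

set_option backward.isDefEq.respectTransparency.types false in
/-- The `n`-torsion `K`-points correspond to the closed points in the fibre of `[n]` over the
base point. -/
noncomputable def torsionEquiv [LocallyOfFiniteType f] (L : RelativeGroupLaw K f) (n : ℕ) :
    {x : SchemeHomOver (𝟙 (Spec (CommRingCat.of K))) f // L.IsTorsionPoint (𝟙 _) n x} ≃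
      {a : A // IsClosed {a} ∧ (L.schemeNsmul n) a = basePt L} :=
  ((pointEquivClosedPoint f).subtypeEquiv (p := fun x => L.IsTorsionPoint (𝟙 _) n x)
    (q := fun a => (L.schemeNsmul n) a.1 = basePt L)
    (fun x => isTorsionPoint_iff_apply L n x)).trans
  { toFun := fun a => ⟨a.1.1, a.1.2, a.2⟩
    invFun := fun a => ⟨⟨a.1, a.2.1⟩, a.2.2⟩
    left_inv := fun _ => rfl
    right_inv := fun _ => rfl }


set_option backward.isDefEq.respectTransparency.types false in
theorem torsionEquiv_apply_coe [LocallyOfFiniteType f] (L : RelativeGroupLaw K f) (n : ℕ)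
    (x : {x : SchemeHomOver (𝟙 (Spec (CommRingCat.of K))) f // L.IsTorsionPoint (𝟙 _) n x}) :
    (torsionEquiv L n x).1 = (pointEquivClosedPoint f x.1).1 := rfl

/-- The number of `n`-torsion points is the number of closed points in the fibre of `[n]` over
the base point. -/
theorem natCard_torsion [LocallyOfFiniteType f] (L : RelativeGroupLaw K f) (n : ℕ) :
    Nat.card {x : SchemeHomOver (𝟙 (Spec (CommRingCat.of K))) f // L.IsTorsionPoint (𝟙 _) n x} =
      Nat.card {a : A // IsClosed {a} ∧ (L.schemeNsmul n) a = basePt L} :=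
  Nat.card_congr (torsionEquiv L n)

set_option backward.isDefEq.respectTransparency.types false in
theorem isClosed_basePt [LocallyOfFiniteType f] (L : RelativeGroupLaw K f) :
    IsClosed {basePt L} :=
  (pointEquivClosedPoint f (L.one (𝟙 _))).2

set_option backward.isDefEq.respectTransparency.types false in
/-- Translations act transitively on closed points. -/
theorem exists_translMor_apply [LocallyOfFiniteType f] (L : RelativeGroupLaw K f) (a b : A)
    (ha : IsClosed {a}) (hb : IsClosed {b}) :
    ∃ c : SchemeHomOver (𝟙 (Spec (CommRingCat.of K))) f, (translMor L c) a = b := by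
  set x := (pointEquivClosedPoint f).symm ⟨a, ha⟩ with hx
  set y := (pointEquivClosedPoint f).symm ⟨b, hb⟩ with hy
  refine ⟨L.mul (𝟙 _) (L.inv (𝟙 _) x) y, ?_⟩
  have h := point_comp_translMor L (L.mul (𝟙 _) (L.inv (𝟙 _) x) y) x
  rw [← L.mul_assoc, L.mul_inv_cancel, L.one_mul] at h
  have h' := congrArg (fun φ : Spec (CommRingCat.of K) ⟶ A => φ (IsLocalRing.closedPoint K)) h
  simp only [Scheme.Hom.comp_apply] at h'
  have hxa : x.1 (IsLocalRing.closedPoint K) = a :=
    congrArg Subtype.val ((pointEquivClosedPoint f).apply_symm_apply ⟨a, ha⟩)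
  have hyb : y.1 (IsLocalRing.closedPoint K) = b :=
    congrArg Subtype.val ((pointEquivClosedPoint f).apply_symm_apply ⟨b, hb⟩)
  rw [hxa, hyb] at h'
  exact h'

end AlgClosed

/-! ### A topological irreducibility criterion -/

/-- A connected Noetherian Jacobson space whose homeomorphism group acts transitively on
closed points is irreducible. -/
theorem irreducibleSpace_of_transitive {X : Type*} [TopologicalSpace X]
    [TopologicalSpace.NoetherianSpace X] [JacobsonSpace X] [ConnectedSpace X]
    (H : ∀ x y : X, IsClosed {x} → IsClosed {y} → ∃ h : X ≃ₜ X, h x = y) :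
    IrreducibleSpace X := by
  have hfin : (irreducibleComponents X).Finite :=
    TopologicalSpace.NoetherianSpace.finite_irreducibleComponents
  -- distinct components are disjoint
  have hdisj : ∀ Z ∈ irreducibleComponents X, ∀ Z' ∈ irreducibleComponents X,
      (Z ∩ Z').Nonempty → Z = Z' := by
    intro Z hZ Z' hZ' hne
    have hZc := isClosed_of_mem_irreducibleComponents Z hZ
    have hZ'c := isClosed_of_mem_irreducibleComponents Z' hZ'
    obtain ⟨y, ⟨hyZ, hyZ'⟩, hy⟩ := nonempty_inter_closedPoints hne (hZc.inter hZ'c).isLocallyClosed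
    -- a closed point lying on `Z` only
    set U : Set X := (⋃₀ (irreducibleComponents X \ {Z}))ᶜ with hU
    have hUopen : IsOpen U := by
      rw [hU, isOpen_compl_iff]
      rw [Set.sUnion_eq_biUnion]
      exact (hfin.subset Set.sdiff_subset).isClosed_biUnion
        (fun W hW => isClosed_of_mem_irreducibleComponents W hW.1)
    have hUne : U.Nonempty := by
      have hcl := closure_sUnion_irreducibleComponents_sdiff_singleton hfin Z hZ
      by_contra hemp
      rw [Set.not_nonempty_iff_eq_empty] at hemp
      rw [← hU, hemp, closure_empty] at hcl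
      exact hZ.1.1.ne_empty hcl.symm
    obtain ⟨x, hxU, hx⟩ := nonempty_inter_closedPoints hUne hUopen.isLocallyClosed
    obtain ⟨h, hh⟩ := H x y hx hy
    have key : ∀ W ∈ irreducibleComponents X, y ∈ W → h ⁻¹' W = Z := by
      intro W hW hyW
      have hpre : h ⁻¹' W ∈ irreducibleComponents X :=
        preimage_mem_irreducibleComponents hW h.isOpenEmbedding
          (by rw [h.surjective.range_eq, Set.inter_univ]; exact hW.1.1)
      by_contra hne'
      apply hxU
      exact Set.mem_sUnion.mpr ⟨h ⁻¹' W, ⟨hpre, hne'⟩, by simpa [hh] using hyW⟩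
    have h1 := key Z hZ hyZ
    have h2 := key Z' hZ' hyZ'
    have : h ⁻¹' Z = h ⁻¹' Z' := h1.trans h2.symm
    exact (Set.preimage_eq_preimage h.surjective).mp this
  obtain ⟨x0⟩ := (inferInstance : Nonempty X)
  set Z := irreducibleComponent x0 with hZdef
  have hZ : Z ∈ irreducibleComponents X := irreducibleComponent_mem_irreducibleComponents x0
  have hZclopen : IsClopen Z := by
    refine ⟨isClosed_of_mem_irreducibleComponents Z hZ, ?_⟩
    have hcompl : Zᶜ = ⋃₀ (irreducibleComponents X \ {Z}) := by
      ext w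
      constructor
      · intro hw
        have hw' : w ∈ ⋃₀ irreducibleComponents X := by
          rw [sUnion_irreducibleComponents]; trivial
        obtain ⟨W, hW, hwW⟩ := Set.mem_sUnion.mp hw'
        refine Set.mem_sUnion.mpr ⟨W, ⟨hW, ?_⟩, hwW⟩
        rintro (rfl : W = Z)
        exact hw hwW
      · rintro ⟨W, ⟨hW, hWZ⟩, hwW⟩ hwZ
        exact hWZ (hdisj W hW Z hZ ⟨w, hwW, hwZ⟩)
    rw [← isClosed_compl_iff, hcompl]
    rw [Set.sUnion_eq_biUnion]
    exact (hfin.subset Set.sdiff_subset).isClosed_biUnion
      (fun W hW => isClosed_of_mem_irreducibleComponents W hW.1)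
  have hZuniv : Z = Set.univ := hZclopen.eq_univ ⟨x0, mem_irreducibleComponent⟩
  have hirr : IsIrreducible (Set.univ : Set X) := hZuniv ▸ hZ.1
  exact @IrreducibleSpace.mk _ _ ⟨hirr.2⟩ ⟨x0⟩


/-! ### Smooth over a field implies reduced -/

section Ring

open Polynomial TensorProduct

/-- Elements of `K[X]` integral over the field `K` are constants. -/
theorem coeff_one_eq_zero_of_isIntegral {K : Type*} [Field K] (p : K[X])
    (hp : _root_.IsIntegral K p) :
    p.coeff 1 = 0 := by
  obtain ⟨q, hq, hq0⟩ := hp
  have hq0' : q.comp p = 0 := hq0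
  have hdeg := Polynomial.natDegree_comp (p := q) (q := p)
  rw [hq0', natDegree_zero] at hdeg
  rcases Nat.eq_zero_or_pos p.natDegree with h0 | hpos
  · exact coeff_eq_zero_of_natDegree_lt (by omega)
  · have hq1 : q.natDegree = 0 := by
      rcases Nat.mul_eq_zero.mp hdeg.symm with h | h
      · exact h
      · omega
    rw [eq_one_of_monic_natDegree_zero hq hq1, Polynomial.one_comp] at hq0'
    exact absurd hq0' one_ne_zero

/-- A smooth algebra over a field is reduced. -/
theorem isReduced_of_smooth_field (K S : Type*) [Field K] [CommRing S] [Algebra K S]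
    [Algebra.Smooth K S] : _root_.IsReduced S := by
  refine ⟨fun n hn => ?_⟩
  -- `n ⊗ X` is nilpotent, hence integral over `S`
  have hz : _root_.IsIntegral S (n ⊗ₜ[K] (X : K[X])) := by
    obtain ⟨k, hk⟩ := hn
    refine ⟨X ^ k, monic_X_pow k, ?_⟩
    simp [Algebra.TensorProduct.tmul_pow, hk]
  obtain ⟨w, hw⟩ := (TensorProduct.toIntegralClosure_bijective_of_smooth (R := K) (S := S)
    (B := K[X])).2 ⟨_, hz⟩
  have hw' : Algebra.TensorProduct.map (AlgHom.id S S) (integralClosure K K[X]).val w =
      n ⊗ₜ[K] (X : K[X]) := congrArg Subtype.val hw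
  -- the `K`-linear functional "coefficient of `X`"
  let ψ : S ⊗[K] K[X] →ₗ[K] S := (TensorProduct.rid K S).toLinearMap ∘ₗ
    LinearMap.lTensor S (lcoeff K 1)
  have h1 : ψ (n ⊗ₜ[K] (X : K[X])) = n := by
    simp [ψ]
  have h2 : ∀ w : S ⊗[K] integralClosure K K[X],
      ψ (Algebra.TensorProduct.map (AlgHom.id S S) (integralClosure K K[X]).val w) = 0 := by
    intro w
    induction w with
    | zero => simp
    | add x y hx hy => rw [map_add, map_add, hx, hy, add_zero]
    | tmul s y =>
      have hy : (y : K[X]).coeff 1 = 0 := coeff_one_eq_zero_of_isIntegral _ y.2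
      simp [ψ, hy]
  rw [← h1, ← hw', h2]

end Ring

section Field

variable {K : Type u} [Field K] {A : Scheme.{u}} (f : A ⟶ Spec (CommRingCat.of K))

/-- A scheme smooth over a field is reduced. -/
theorem isReduced_of_smooth [Smooth f] : AlgebraicGeometry.IsReduced A := by
  wlog h : ∃ S, A = Spec S generalizing A
  · have : ∀ i, AlgebraicGeometry.IsReduced (A.affineCover.X i) := fun i =>
      this (A.affineCover.f i ≫ f) ⟨_, rfl⟩
    exact IsReduced.of_openCover A (𝒰 := A.affineCover)
  obtain ⟨S, rfl⟩ := h
  obtain ⟨φ, rfl⟩ := Spec.map_surjective f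
  have hsm : φ.hom.Smooth := (HasRingHomProperty.Spec_iff (P := @Smooth)).mp inferInstance
  algebraize [φ.hom]
  have := isReduced_of_smooth_field K S
  infer_instance

end Field

/-! ### The abelian variety is an integral scheme -/

section Bundle

variable {K : Type u} [Field K] {A : Scheme.{u}} {f : A ⟶ Spec (CommRingCat.of K)}

theorem connectedSpace_of_bundle (hA : AbelianSchemePropertyBundle K f) : ConnectedSpace A := by
  obtain ⟨s⟩ : Nonempty ↥(Spec (CommRingCat.of K)) := inferInstance
  have h := hA.connectedFibres s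
  have huniv : f.base ⁻¹' {s} = Set.univ := by
    ext a
    simp only [Set.mem_preimage, Set.mem_singleton_iff, Set.mem_univ, iff_true]
    exact Subsingleton.elim _ _
  exact connectedSpace_iff_univ.mpr (huniv ▸ h)

theorem isNoetherian_of_bundle (hA : AbelianSchemePropertyBundle K f) : IsNoetherian A := by
  have := hA.proper
  have : CompactSpace A := QuasiCompact.compactSpace_of_compactSpace f
  exact { __ := LocallyOfFiniteType.isLocallyNoetherian f }

theorem jacobsonSpace_of_bundle (hA : AbelianSchemePropertyBundle K f) : JacobsonSpace A := by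
  have := hA.proper
  exact LocallyOfFiniteType.jacobsonSpace f

theorem isReduced_of_bundle (hA : AbelianSchemePropertyBundle K f) :
    AlgebraicGeometry.IsReduced A := by
  have := hA.smooth
  exact isReduced_of_smooth f

theorem irreducibleSpace_of_bundle [IsAlgClosed K] (L : RelativeGroupLaw K f)
    (hA : AbelianSchemePropertyBundle K f) : IrreducibleSpace A := by
  have := hA.proper
  have := connectedSpace_of_bundle hA
  have := isNoetherian_of_bundle hA
  have := jacobsonSpace_of_bundle hA
  refine irreducibleSpace_of_transitive (fun a b ha hb => ?_)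
  obtain ⟨c, hc⟩ := exists_translMor_apply L a b ha hb
  exact ⟨Scheme.homeoOfIso (translIso L c), hc⟩

/-- An abelian variety over an algebraically closed field is an integral scheme. -/
theorem isIntegral_of_bundle [IsAlgClosed K] (L : RelativeGroupLaw K f)
    (hA : AbelianSchemePropertyBundle K f) : AlgebraicGeometry.IsIntegral A := by
  have := isReduced_of_bundle hA
  have := irreducibleSpace_of_bundle L hA
  exact isIntegral_of_irreducibleSpace_of_isReduced A

end Bundle

end Fermat.Agent.S26.Setup
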