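import Mathlib
import Fermat.Agent.S26.UBALG.UpperBound

/-!
# S26, package P1 (UBALG): abstract upper bound for spaces of sections (FROZEN statement)

Pure algebra, Mathlib only.  Proof: BOARD.md (origin/helper3926), section P1:
separating transcendence basis `t` (`exists_isTranscendenceBasis_and_isSeparable_of_perfectField`),
`E = K(t)`, trace form of `F/E`, discrete valuations of `E` at irreducible polynomials and at
infinity, integral closure = intersection of valuation rings (`iInf_valuationSubring_superset`).
-/

set_option autoImplicit false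

namespace Fermat.Agent.S26

/-- P1 EXPORT.  Let `F/K` be a finitely generated field extension of transcendence degree `g`
over an algebraically closed field, and `S k` subspaces of `F` such that for finitely many
`h_j ≠ 0`: every valuation subring `O ⊇ K` of `F` contains some `h_j` with
`S k * h_j ^ k ⊆ O` for all `k`.  Then `dim S k ≤ C (k+1)^g`. -/
theorem ubalg {K F : Type*} [Field K] [IsAlgClosed K] [Field F] [Algebra K F]
    [Algebra.EssFiniteType K F] (g : ℕ) (htr : Algebra.trdeg K F = (g : Cardinal))
    (S : ℕ → Submodule K F) (r : ℕ) (h : Fin r → F) (h0 : ∀ j, h j ≠ 0)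
    (hval : ∀ O : ValuationSubring F, (∀ c : K, algebraMap K F c ∈ O) →
      ∃ j : Fin r, h j ∈ O ∧ ∀ (k : ℕ) (x : F), x ∈ S k → x * h j ^ k ∈ O) :
    (∀ k : ℕ, Module.Finite K (S k)) ∧
      ∃ C : ℕ, ∀ k : ℕ, Module.finrank K (S k) ≤ C * (k + 1) ^ g := by
  exact UBALG.ubalg_export g htr S r h h0 hval

end Fermat.Agent.S26
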