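import Mathlib

/-!
# S26, package P0 (VOLALG): the abstract volume count  (FROZEN statement; lead helper3926)

Pure algebra, Mathlib only.  See BOARD.md (origin/helper3926), section P0, for the proof.

PROVED (helper6863): the structure `VolData` and the statement of `VolData.card_eq` are verbatim
the frozen ones; the helper lemmas live in the namespace `Fermat.Agent.S26.Vol` of this file:

* growth comparison (`vol_growth`, `vol_growth_one`): pure arithmetic of `a k = dim L k`;
* monomial lower bound (`vol_lower`, `vol_lower_one`): `(m+1)^g ≤ dim L (g m k₀)`;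
* Galois/trace comparison (`vol_exists_basis`, `vol_tr_lower`, `vol_tr_upper`): a basis of `F` over
  the fixed field inside one `W k₁` (Artin + graded integral closedness), and
  `#G · dim L k ≤ dim W (k + k₁)`, `dim W k ≤ #G · dim L (k + k₁)` (Dedekind, trace form);
* `vol_main`: the unbundled form of the count (only `Group G` is used, not commutativity).
-/

set_option autoImplicit false

namespace Fermat.Agent.S26

/-- Abstract data of "a finite group `G` of automorphisms of a field `F` of transcendence degree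
`g` whose fixed field is `φ(F)`, together with two filtrations `L k = L(k D₀)` and
`W k = L(k φ^* D₀)` such that `N φ^* D₀ ~ N n² D₀`". -/
structure VolData (K F : Type*) [Field K] [Field F] [Algebra K F] (g n : ℕ)
    (G : Type*) [CommGroup G] [MulSemiringAction G F] where
  /-- the endomorphism `[n]^*` of the function field -/
  φ : F →ₐ[K] F
  /-- `L k = L(k D₀)` -/
  L : ℕ → Submodule K F
  /-- `W k = L(k [n]^* D₀)` -/
  W : ℕ → Submodule K F
  smul_algebraMap : ∀ (a : G) (c : K), a • (algebraMap K F c) = algebraMap K F c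
  faithful : ∀ a : G, (∀ x : F, a • x = x) → a = 1
  fixed_iff : ∀ x : F, (∀ a : G, a • x = x) ↔ x ∈ φ.range
  one_mem_L : (1 : F) ∈ L 1
  mul_mem_L : ∀ {k l : ℕ} {x y : F}, x ∈ L k → y ∈ L l → x * y ∈ L (k + l)
  mul_mem_W : ∀ {k l : ℕ} {x y : F}, x ∈ W k → y ∈ W l → x * y ∈ W (k + l)
  map_mem_W : ∀ {k : ℕ} {x : F}, x ∈ L k → φ x ∈ W k
  smul_mem_W : ∀ (a : G) {k : ℕ} {x : F}, x ∈ W k → a • x ∈ W k
  mem_L_of_map_mem_W : ∀ {k : ℕ} {x : F}, φ x ∈ W k → x ∈ L k
  /-- graded integral closedness of `W` -/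
  integral_mem_W : ∀ (k m : ℕ) (y : F) (c : ℕ → F), (∀ i < m, c i ∈ W ((m - i) * k)) →
    y ^ m + ∑ i ∈ Finset.range m, c i * y ^ i = 0 → y ∈ W k
  /-- every function is a quotient of two sections of some `k D₀` -/
  exists_frac : ∀ u : F, ∃ (k : ℕ) (s₁ s₂ : F), s₁ ∈ L k ∧ s₂ ∈ L k ∧ s₂ ≠ 0 ∧ u * s₂ = s₁
  finite_L : ∀ k : ℕ, Module.Finite K (L k)
  bound_L : ∃ C : ℕ, ∀ k : ℕ, Module.finrank K (L k) ≤ C * (k + 1) ^ g
  /-- `N [n]^* D₀ = N n² D₀ + div u⁻¹` -/
  equiv : ∃ N : ℕ, 0 < N ∧ ∃ u : F, u ≠ 0 ∧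
    ∀ (j : ℕ) (x : F), x ∈ W (N * j) ↔ u ^ j * x ∈ L (N * n ^ 2 * j)

end Fermat.Agent.S26

namespace Fermat.Agent.S26.Vol

/-! ## Part A: growth comparison -/

/-- Bernoulli: `M^(i+1) + (i+1) M^i ≤ (M+1)^(i+1)`. -/
lemma vol_bernoulli (M i : ℕ) : M ^ (i + 1) + (i + 1) * M ^ i ≤ (M + 1) ^ (i + 1) := by
  induction i with
  | zero => simp
  | succ i ih =>
    calc M ^ (i + 1 + 1) + (i + 1 + 1) * M ^ (i + 1)
        ≤ (M + 1) * (M ^ (i + 1) + (i + 1) * M ^ i) := by
          have : 0 ≤ (i + 1) * M ^ i := Nat.zero_le _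
          ring_nf
          nlinarith [Nat.zero_le (M ^ i), Nat.zero_le (M ^ i * i)]
      _ ≤ (M + 1) * (M + 1) ^ (i + 1) := Nat.mul_le_mul_left _ ih
      _ = (M + 1) ^ (i + 1 + 1) := by ring

/-- An exponential with a larger base is not bounded by a constant times a smaller one. -/
lemma vol_no_exp_bound (M B : ℕ) (hM : 1 ≤ M) (h : ∀ i, (M + 1) ^ i ≤ B * M ^ i) : False := by
  have h1 := h (B * M + 1)
  have h2 := vol_bernoulli M (B * M)
  have hpos : 0 < M ^ (B * M) := pow_pos hM _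
  have h3 : M ^ (B * M + 1) + (B * M + 1) * M ^ (B * M) ≤ B * M ^ (B * M + 1) := h2.trans h1
  have h4 : M ^ (B * M) * (M + (B * M + 1)) ≤ M ^ (B * M) * (B * M) := by
    calc M ^ (B * M) * (M + (B * M + 1)) = M ^ (B * M + 1) + (B * M + 1) * M ^ (B * M) := by ring
      _ ≤ B * M ^ (B * M + 1) := h3
      _ = M ^ (B * M) * (B * M) := by ring
  have h5 := Nat.le_of_mul_le_mul_left h4 hpos
  omega

/-- **Growth comparison.** -/
theorem vol_growth (g n d N κ k0 C : ℕ) (hn : 2 ≤ n) (hN : 0 < N) (hk0 : 0 < k0)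
    (a : ℕ → ℕ) (ha : Monotone a)
    (hUB : ∀ k, 1 ≤ k → a k ≤ C * k ^ g)
    (ha1 : ∀ k, 1 ≤ k → 1 ≤ a k)
    (hLB : ∀ m, 1 ≤ g * m → (m + 1) ^ g ≤ a (g * m * k0))
    (hE1 : ∀ j, 1 ≤ j → d * a (N * j) ≤ a (N * n ^ 2 * (j + κ)))
    (hE2 : ∀ j, 1 ≤ j → a (N * n ^ 2 * j) ≤ d * a (N * (j + κ))) :
    d = n ^ (2 * g) := by
  have hn2 : 4 ≤ n ^ 2 := by nlinarith
  have hM : 1 ≤ n ^ (2 * g) := Nat.one_le_pow _ _ (by omega)
  have hMeq : ∀ i, (n ^ (2 * i)) ^ g = (n ^ (2 * g)) ^ i := by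
    intro i
    rw [← pow_mul, ← pow_mul]
    congr 1
    ring
  -- lower growth: `k^g ≤ a k * (g k0)^g` for `k ≥ 1`
  have hL : ∀ w, 1 ≤ w → w ^ g ≤ a w * (g * k0) ^ g := by
    intro w hw
    rcases Nat.eq_zero_or_pos g with hg | hg
    · subst hg
      simpa using ha1 w hw
    · have hpos : 0 < g * k0 := Nat.mul_pos hg hk0
      set m := w / (g * k0) with hm
      have h1 : g * m * k0 ≤ w := by
        have := Nat.div_mul_le_self w (g * k0)
        calc g * m * k0 = w / (g * k0) * (g * k0) := by rw [hm]; ring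
          _ ≤ w := this
      have h2 : w ≤ (m + 1) * (g * k0) := by
        have := Nat.lt_mul_div_succ w hpos
        rw [hm]
        linarith [this, Nat.mul_comm (g * k0) (w / (g * k0) + 1)]
      have h3 : (m + 1) ^ g ≤ a w := by
        rcases Nat.eq_zero_or_pos m with hm0 | hm0
        · rw [hm0]
          simpa using ha1 w hw
        · exact (hLB m (Nat.mul_pos hg hm0)).trans (ha h1)
      calc w ^ g ≤ ((m + 1) * (g * k0)) ^ g := Nat.pow_le_pow_left h2 g
        _ = (m + 1) ^ g * (g * k0) ^ g := mul_pow _ _ _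
        _ ≤ a w * (g * k0) ^ g := Nat.mul_le_mul_right _ h3
  apply le_antisymm
  · -- `d ≤ n^(2g)`
    by_contra hlt
    rw [not_le] at hlt
    -- the sequence `j_{i+1} = n² (j_i + κ)`, `j_0 = 1`
    let js : ℕ → ℕ := fun i => Nat.rec 1 (fun _ j => n ^ 2 * (j + κ)) i
    have js0 : js 0 = 1 := rfl
    have jss : ∀ i, js (i + 1) = n ^ 2 * (js i + κ) := fun i => rfl
    have hjpos : ∀ i, 1 ≤ js i := by
      intro i
      induction i with
      | zero => simp [js0]
      | succ i ih =>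
        rw [jss]
        nlinarith
    have hgrow : ∀ i, d ^ i ≤ a (N * js i) := by
      intro i
      induction i with
      | zero => simpa [js0] using ha1 N hN
      | succ i ih =>
        calc d ^ (i + 1) = d * d ^ i := by ring
          _ ≤ d * a (N * js i) := Nat.mul_le_mul_left _ ih
          _ ≤ a (N * n ^ 2 * (js i + κ)) := hE1 _ (hjpos i)
          _ = a (N * js (i + 1)) := by rw [jss, mul_assoc]
    have hbound : ∀ i, js i + 2 * κ ≤ n ^ (2 * i) * (1 + 2 * κ) := by
      intro i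
      induction i with
      | zero => simp [js0]
      | succ i ih =>
        calc js (i + 1) + 2 * κ = n ^ 2 * js i + n ^ 2 * κ + 2 * κ := by rw [jss]; ring
          _ ≤ n ^ 2 * js i + n ^ 2 * κ + n ^ 2 * κ := by nlinarith
          _ = n ^ 2 * (js i + 2 * κ) := by ring
          _ ≤ n ^ 2 * (n ^ (2 * i) * (1 + 2 * κ)) := Nat.mul_le_mul_left _ ih
          _ = n ^ (2 * (i + 1)) * (1 + 2 * κ) := by ring
    apply vol_no_exp_bound (n ^ (2 * g)) (C * (N * (1 + 2 * κ)) ^ g) hM
    intro i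
    have h1 : (n ^ (2 * g) + 1) ^ i ≤ d ^ i := Nat.pow_le_pow_left hlt i
    have h2 : 1 ≤ N * js i := Nat.mul_pos hN (hjpos i)
    have h3 : N * js i ≤ N * (1 + 2 * κ) * n ^ (2 * i) := by
      have := hbound i
      calc N * js i ≤ N * (js i + 2 * κ) := Nat.mul_le_mul_left _ (Nat.le_add_right _ _)
        _ ≤ N * (n ^ (2 * i) * (1 + 2 * κ)) := Nat.mul_le_mul_left _ this
        _ = N * (1 + 2 * κ) * n ^ (2 * i) := by ring
    calc (n ^ (2 * g) + 1) ^ i ≤ d ^ i := h1
      _ ≤ a (N * js i) := hgrow i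
      _ ≤ C * (N * js i) ^ g := hUB _ h2
      _ ≤ C * (N * (1 + 2 * κ) * n ^ (2 * i)) ^ g :=
          Nat.mul_le_mul_left _ (Nat.pow_le_pow_left h3 g)
      _ = C * (N * (1 + 2 * κ)) ^ g * (n ^ (2 * g)) ^ i := by rw [mul_pow, hMeq, mul_assoc]
  · -- `n^(2g) ≤ d`
    by_contra hlt
    rw [not_le] at hlt
    -- the sequence `j_{i+1} = n² (j_i - κ)`, `j_0 = 2κ + 1`
    let js : ℕ → ℕ := fun i => Nat.rec (2 * κ + 1) (fun _ j => n ^ 2 * (j - κ)) i
    have js0 : js 0 = 2 * κ + 1 := rfl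
    have jss : ∀ i, js (i + 1) = n ^ 2 * (js i - κ) := fun i => rfl
    have hinv : ∀ i, 2 * κ + n ^ (2 * i) ≤ js i := by
      intro i
      induction i with
      | zero => simp [js0]
      | succ i ih =>
        rw [jss]
        have h1 : κ + n ^ (2 * i) ≤ js i - κ := by omega
        calc 2 * κ + n ^ (2 * (i + 1)) ≤ n ^ 2 * κ + n ^ 2 * n ^ (2 * i) := by
              have : n ^ (2 * (i + 1)) = n ^ 2 * n ^ (2 * i) := by ring
              nlinarith
          _ = n ^ 2 * (κ + n ^ (2 * i)) := by ring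
          _ ≤ n ^ 2 * (js i - κ) := Nat.mul_le_mul_left _ h1
    have hgrow : ∀ i, a (N * js i) ≤ d ^ i * a (N * js 0) := by
      intro i
      induction i with
      | zero => simp
      | succ i ih =>
        have hk : js i - κ + κ = js i := by
          have := hinv i
          omega
        have hk1 : 1 ≤ js i - κ := by
          have := hinv i
          have h2 : 1 ≤ n ^ (2 * i) := Nat.one_le_pow _ _ (by omega)
          omega
        calc a (N * js (i + 1)) = a (N * n ^ 2 * (js i - κ)) := by rw [jss, mul_assoc]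
          _ ≤ d * a (N * (js i - κ + κ)) := hE2 _ hk1
          _ = d * a (N * js i) := by rw [hk]
          _ ≤ d * (d ^ i * a (N * js 0)) := Nat.mul_le_mul_left _ ih
          _ = d ^ (i + 1) * a (N * js 0) := by ring
    have hkey : ∀ i, (n ^ (2 * g)) ^ i ≤ (a (N * js 0) * (g * k0) ^ g) * d ^ i := by
      intro i
      have h1 : n ^ (2 * i) ≤ N * js i := by
        have := hinv i
        calc n ^ (2 * i) ≤ js i := by omega
          _ ≤ N * js i := Nat.le_mul_of_pos_left _ hN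
      calc (n ^ (2 * g)) ^ i = (n ^ (2 * i)) ^ g := (hMeq i).symm
        _ ≤ (N * js i) ^ g := Nat.pow_le_pow_left h1 g
        _ ≤ a (N * js i) * (g * k0) ^ g :=
            hL _ ((Nat.one_le_pow _ _ (by omega)).trans h1)
        _ ≤ (d ^ i * a (N * js 0)) * (g * k0) ^ g := Nat.mul_le_mul_right _ (hgrow i)
        _ = (a (N * js 0) * (g * k0) ^ g) * d ^ i := by ring
    rcases Nat.eq_zero_or_pos d with hd | hd
    · have := hkey 1
      rw [hd] at this
      simp at this
      omega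
    · apply vol_no_exp_bound d (a (N * js 0) * (g * k0) ^ g) hd
      intro i
      exact (Nat.pow_le_pow_left hlt i).trans (hkey i)

/-- A polynomial is eventually smaller than `2 ^ s`. -/
lemma vol_poly_lt_two_pow (g B : ℕ) : ∃ s, B * (s + 1) ^ g < 2 ^ s := by
  rcases Nat.eq_zero_or_pos g with hg | hg
  · subst hg
    exact ⟨B, by simpa using Nat.lt_two_pow_self⟩
  · set t := B * (2 * g + 1) ^ g with ht
    refine ⟨2 * g * t, ?_⟩
    have h0 : t + 1 ≤ 2 ^ t := Nat.lt_two_pow_self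
    have h1 : 2 * g * t + 1 ≤ (2 * g + 1) * 2 ^ t := by
      calc 2 * g * t + 1 ≤ (2 * g + 1) * (t + 1) := by nlinarith
        _ ≤ (2 * g + 1) * 2 ^ t := Nat.mul_le_mul_left _ h0
    have h2 : t < 2 ^ (t * g) :=
      calc t < 2 ^ t := Nat.lt_two_pow_self
        _ ≤ 2 ^ (t * g) := Nat.pow_le_pow_right (by norm_num) (Nat.le_mul_of_pos_right t hg)
    calc B * (2 * g * t + 1) ^ g ≤ B * ((2 * g + 1) * 2 ^ t) ^ g :=
          Nat.mul_le_mul_left _ (Nat.pow_le_pow_left h1 g)
      _ = t * 2 ^ (t * g) := by rw [mul_pow, ← pow_mul, ht]; ring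
      _ < 2 ^ (t * g) * 2 ^ (t * g) := Nat.mul_lt_mul_of_pos_right h2 (by positivity)
      _ = 2 ^ (2 * g * t) := by rw [← pow_add]; congr 1; ring

/-- **Growth comparison, the case `n = 1`.** -/
theorem vol_growth_one (g d N κ C : ℕ) (a : ℕ → ℕ)
    (hUB : ∀ k, a k ≤ C * (k + 1) ^ g) (hpos : 1 ≤ a N)
    (hE1 : ∀ j, 1 ≤ j → d * a (N * j) ≤ a (N * (j + κ))) : d ≤ 1 := by
  by_contra hlt
  rw [not_le] at hlt
  have hgrow : ∀ s, d ^ s ≤ a (N * (1 + s * κ)) := by
    intro s
    induction s with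
    | zero => simpa using hpos
    | succ s ih =>
      calc d ^ (s + 1) = d * d ^ s := by ring
        _ ≤ d * a (N * (1 + s * κ)) := Nat.mul_le_mul_left _ ih
        _ ≤ a (N * (1 + s * κ + κ)) := hE1 _ (by omega)
        _ = a (N * (1 + (s + 1) * κ)) := by congr 2; ring
  obtain ⟨s, hs⟩ := vol_poly_lt_two_pow g (C * (N * (1 + κ) + 1) ^ g)
  have h1 : N * (1 + s * κ) + 1 ≤ (N * (1 + κ) + 1) * (s + 1) := by
    have e : (N * (1 + κ) + 1) * (s + 1) = N * (1 + s * κ) + 1 + (N * s + N * κ + s) := by ring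
    omega
  have h2 : 2 ^ s ≤ C * (N * (1 + κ) + 1) ^ g * (s + 1) ^ g :=
    calc 2 ^ s ≤ d ^ s := Nat.pow_le_pow_left hlt s
      _ ≤ a (N * (1 + s * κ)) := hgrow s
      _ ≤ C * (N * (1 + s * κ) + 1) ^ g := hUB _
      _ ≤ C * ((N * (1 + κ) + 1) * (s + 1)) ^ g :=
          Nat.mul_le_mul_left _ (Nat.pow_le_pow_left h1 g)
      _ = C * (N * (1 + κ) + 1) ^ g * (s + 1) ^ g := by rw [mul_pow, mul_assoc]
  omega

/-! ## Part B: the monomial lower bound -/

section Mono

variable {K F : Type*} [Field K] [Field F] [Algebra K F]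

lemma vol_pow_mem (V : ℕ → Submodule K F) (hV1 : (1 : F) ∈ V 0)
    (hVmul : ∀ k l (x y : F), x ∈ V k → y ∈ V l → x * y ∈ V (k + l))
    (k : ℕ) (x : F) (hx : x ∈ V k) (j : ℕ) : x ^ j ∈ V (j * k) := by
  induction j with
  | zero => simpa using hV1
  | succ j ih =>
    rw [pow_succ, Nat.succ_mul]
    exact hVmul _ _ _ _ ih hx

lemma vol_prod_mem (V : ℕ → Submodule K F) (hV1 : (1 : F) ∈ V 0)
    (hVmul : ∀ k l (x y : F), x ∈ V k → y ∈ V l → x * y ∈ V (k + l))
    {ι : Type*} (s : Finset ι) (x : ι → F) (k : ι → ℕ) (h : ∀ i ∈ s, x i ∈ V (k i)) :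
    ∏ i ∈ s, x i ∈ V (∑ i ∈ s, k i) := by
  classical
  induction s using Finset.induction_on with
  | empty => simpa using hV1
  | insert i s hi ih =>
    rw [Finset.prod_insert hi, Finset.sum_insert hi]
    exact hVmul _ _ _ _ (h i (Finset.mem_insert_self i s))
      (ih fun j hj => h j (Finset.mem_insert_of_mem hj))

/-- A common denominator for finitely many elements. -/
lemma vol_common_denom (V : ℕ → Submodule K F) (hV1 : (1 : F) ∈ V 0)
    (hVmul : ∀ k l (x y : F), x ∈ V k → y ∈ V l → x * y ∈ V (k + l))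
    (hBA : ∀ u : F, ∃ k, ∃ s₁ ∈ V k, ∃ s₂ ∈ V k, s₂ ≠ 0 ∧ u * s₂ = s₁)
    {ι : Type*} (s : Finset ι) (u : ι → F) :
    ∃ k, ∃ t ∈ V k, t ≠ 0 ∧ ∀ i ∈ s, u i * t ∈ V k := by
  classical
  induction s using Finset.induction_on with
  | empty => exact ⟨0, 1, hV1, one_ne_zero, by simp⟩
  | insert i s hi ih =>
    obtain ⟨k, t, ht, ht0, hts⟩ := ih
    obtain ⟨k', s₁, hs₁, s₂, hs₂, hs₂0, he⟩ := hBA (u i)
    refine ⟨k + k', t * s₂, hVmul _ _ _ _ ht hs₂, mul_ne_zero ht0 hs₂0, ?_⟩
    intro j hj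
    rw [Finset.mem_insert] at hj
    rcases hj with rfl | hj
    · have e : u j * (t * s₂) = t * s₁ := by rw [← he]; ring
      rw [e]
      exact hVmul _ _ _ _ ht hs₁
    · have e : u j * (t * s₂) = (u j * t) * s₂ := by ring
      rw [e]
      exact hVmul _ _ _ _ (hts j hj) hs₂

/-- **Lower bound (V1).** -/
theorem vol_lower (V : ℕ → Submodule K F) (hVfin : ∀ k, Module.Finite K (V k))
    (hVmono : Monotone V) (hV1 : (1 : F) ∈ V 0)
    (hVmul : ∀ k l (x y : F), x ∈ V k → y ∈ V l → x * y ∈ V (k + l))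
    (hBA : ∀ u : F, ∃ k, ∃ s₁ ∈ V k, ∃ s₂ ∈ V k, s₂ ≠ 0 ∧ u * s₂ = s₁)
    (g : ℕ) (u : Fin g → F) (hu : AlgebraicIndependent K u) :
    ∃ k0, 0 < k0 ∧ ∀ m, (m + 1) ^ g ≤ Module.finrank K (V (g * m * k0)) := by
  classical
  obtain ⟨k, t, ht, ht0, hts⟩ := vol_common_denom V hV1 hVmul hBA Finset.univ u
  have hk : V k ≤ V (k + 1) := hVmono (Nat.le_succ k)
  refine ⟨k + 1, Nat.succ_pos k, fun m => ?_⟩
  -- the family of monomials
  let emb : (Fin g → Fin (m + 1)) → (Fin g →₀ ℕ) :=
    fun α => Finsupp.equivFunOnFinite.symm (fun i => (α i : ℕ))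
  have hemb : Function.Injective emb := by
    intro α β h
    funext i
    have h1 : (emb α) i = (emb β) i := by rw [h]
    exact Fin.ext h1
  let fam : (Fin g → Fin (m + 1)) → F :=
    fun α => t ^ (g * m) * ∏ i, u i ^ (α i : ℕ)
  -- membership
  have hmem : ∀ α, fam α ∈ V (g * m * (k + 1)) := by
    intro α
    have e1 : fam α = ∏ i : Fin g, ((u i * t) ^ (α i : ℕ) * t ^ (m - (α i : ℕ))) := by
      have e2 : ∀ i : Fin g, (u i * t) ^ (α i : ℕ) * t ^ (m - (α i : ℕ)) =
          u i ^ (α i : ℕ) * t ^ m := by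
        intro i
        have hle : (α i : ℕ) ≤ m := Nat.lt_succ_iff.mp (α i).2
        rw [mul_pow, mul_assoc, ← pow_add, Nat.add_sub_cancel' hle]
      simp only [e2, fam]
      rw [Finset.prod_mul_distrib, Finset.prod_const, Finset.card_univ, Fintype.card_fin,
        ← pow_mul, mul_comm m g, mul_comm]
    rw [e1]
    have h2 := vol_prod_mem V hV1 hVmul Finset.univ
      (fun i : Fin g => (u i * t) ^ (α i : ℕ) * t ^ (m - (α i : ℕ))) (fun _ => m * (k + 1))
      (fun i _ => by
        have hle : (α i : ℕ) ≤ m := Nat.lt_succ_iff.mp (α i).2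
        have h3 := hVmul _ _ _ _
          (vol_pow_mem V hV1 hVmul (k + 1) (u i * t) (hk (hts i (Finset.mem_univ i))) (α i : ℕ))
          (vol_pow_mem V hV1 hVmul (k + 1) t (hk ht) (m - (α i : ℕ)))
        have e3 : (α i : ℕ) * (k + 1) + (m - (α i : ℕ)) * (k + 1) = m * (k + 1) := by
          rw [← Nat.add_mul, Nat.add_sub_cancel' hle]
        rw [e3] at h3
        exact h3)
    have e4 : ∑ _i : Fin g, m * (k + 1) = g * m * (k + 1) := by
      rw [Finset.sum_const, Finset.card_univ, Fintype.card_fin, smul_eq_mul, mul_assoc]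
    rw [e4] at h2
    exact h2
  -- linear independence
  have hli0 : LinearIndependent K (fun s : Fin g →₀ ℕ => MvPolynomial.monomial s (1 : K)) := by
    have := (MvPolynomial.basisMonomials (Fin g) K).linearIndependent
    simpa [MvPolynomial.coe_basisMonomials] using this
  have hinj : Function.Injective (MvPolynomial.aeval u : MvPolynomial (Fin g) K →ₐ[K] F) := hu
  have hli1 : LinearIndependent K
      (fun s : Fin g →₀ ℕ => (MvPolynomial.aeval u : MvPolynomial (Fin g) K →ₐ[K] F)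
        (MvPolynomial.monomial s (1 : K))) :=
    hli0.map' (MvPolynomial.aeval u : MvPolynomial (Fin g) K →ₐ[K] F).toLinearMap
      (LinearMap.ker_eq_bot.mpr hinj)
  have hli2 : LinearIndependent K
      (fun α : Fin g → Fin (m + 1) => (MvPolynomial.aeval u : MvPolynomial (Fin g) K →ₐ[K] F)
        (MvPolynomial.monomial (emb α) (1 : K))) :=
    hli1.comp emb hemb
  have hmulinj : LinearMap.ker (LinearMap.mulLeft K (t ^ (g * m))) = ⊥ := by
    rw [LinearMap.ker_eq_bot]
    intro x y hxy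
    simp only [LinearMap.mulLeft_apply] at hxy
    exact mul_left_cancel₀ (pow_ne_zero _ ht0) hxy
  have hli3 : LinearIndependent K fam := by
    have h := hli2.map' (LinearMap.mulLeft K (t ^ (g * m))) hmulinj
    have e : fam = fun α : Fin g → Fin (m + 1) => (LinearMap.mulLeft K (t ^ (g * m)))
        ((MvPolynomial.aeval u : MvPolynomial (Fin g) K →ₐ[K] F)
          (MvPolynomial.monomial (emb α) (1 : K))) := by
      funext α
      simp only [fam, LinearMap.mulLeft_apply, MvPolynomial.aeval_monomial, map_one, one_mul]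
      congr 1
      rw [Finsupp.prod_fintype _ _ (fun i => pow_zero _)]
      rfl
    rw [e]
    exact h
  -- count
  let fam' : (Fin g → Fin (m + 1)) → ↥(V (g * m * (k + 1))) := fun α => ⟨fam α, hmem α⟩
  have hli4 : LinearIndependent K fam' :=
    LinearIndependent.of_comp (V (g * m * (k + 1))).subtype hli3
  have := hVfin (g * m * (k + 1))
  have hcard := hli4.fintype_card_le_finrank
  simpa using hcard

end Mono

/-! ## Part C: Galois/trace comparison -/

section Dedekind

variable {F G : Type*} [Field F] [Group G] [Fintype G] [MulSemiringAction G F]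

/-- Dedekind: the trace form of a faithful action is nondegenerate. -/
lemma vol_tr_nondeg (hfaith : ∀ a : G, (∀ x : F, a • x = x) → a = 1) (w : F)
    (h : ∀ y : F, ∑ σ : G, σ • (w * y) = 0) : w = 0 := by
  classical
  let f : G → (F →* F) := fun σ => ((MulSemiringAction.toRingHom G F σ : F →+* F) : F →* F)
  have hfapp : ∀ (σ : G) (x : F), f σ x = σ • x := fun σ x => rfl
  have hf : Function.Injective f := by
    intro σ τ hστ
    have h1 : ∀ x : F, (τ⁻¹ * σ) • x = x := by
      intro x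
      have h2 : σ • x = τ • x := by
        rw [← hfapp, ← hfapp, hστ]
      rw [mul_smul, h2, inv_smul_smul]
    exact (inv_mul_eq_one.mp (hfaith _ h1)).symm
  have hli : LinearIndependent F (fun σ : G => ((f σ : F →* F) : F → F)) :=
    (linearIndependent_monoidHom F F).comp f hf
  have h2 : ∑ σ : G, (σ • w) • ((f σ : F →* F) : F → F) = 0 := by
    funext y
    simp only [Finset.sum_apply, Pi.smul_apply, Pi.zero_apply, smul_eq_mul]
    rw [← h y]
    refine Finset.sum_congr rfl fun σ _ => ?_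
    rw [hfapp, smul_mul']
  have h3 := Fintype.linearIndependent_iff.mp hli (fun σ => σ • w) h2 1
  simpa using h3

end Dedekind

section Filtration

variable {K F : Type*} [Field K] [Field F] [Algebra K F]

/-- A filtration with `1` in degree one is monotone. -/
lemma vol_mono_of_one_mem (V : ℕ → Submodule K F) (hV1 : (1 : F) ∈ V 1)
    (hVmul : ∀ k l (x y : F), x ∈ V k → y ∈ V l → x * y ∈ V (k + l)) : Monotone V := by
  have hstep : ∀ k l, V k ≤ V (k + l) := by
    intro k l
    induction l with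
    | zero => exact le_of_eq rfl
    | succ l ih =>
      intro x hx
      have := hVmul _ _ _ _ (ih hx) hV1
      rwa [mul_one] at this
  intro k l hkl
  obtain ⟨c, rfl⟩ := Nat.exists_eq_add_of_le hkl
  exact hstep k c

/-- `x * s ^ j ∈ V ((j + 1) k)` for `x, s ∈ V k`. -/
lemma vol_mul_pow_mem (V : ℕ → Submodule K F)
    (hVmul : ∀ k l (x y : F), x ∈ V k → y ∈ V l → x * y ∈ V (k + l))
    (k : ℕ) (x s : F) (hx : x ∈ V k) (hs : s ∈ V k) (j : ℕ) : x * s ^ j ∈ V ((j + 1) * k) := by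
  induction j with
  | zero => simpa using hx
  | succ j ih =>
    have h := hVmul _ _ _ _ ih hs
    have e : x * s ^ (j + 1) = x * s ^ j * s := by ring
    have e2 : (j + 1 + 1) * k = (j + 1) * k + k := by ring
    rw [e, e2]
    exact h

/-- A common denominator for finitely many elements (`1` in degree one). -/
lemma vol_common_denom_one (V : ℕ → Submodule K F) (hV1 : (1 : F) ∈ V 1)
    (hVmul : ∀ k l (x y : F), x ∈ V k → y ∈ V l → x * y ∈ V (k + l))
    (hBA : ∀ u : F, ∃ k, ∃ s₁ ∈ V k, ∃ s₂ ∈ V k, s₂ ≠ 0 ∧ u * s₂ = s₁)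
    {ι : Type*} (s : Finset ι) (u : ι → F) :
    ∃ k, ∃ t ∈ V k, t ≠ 0 ∧ ∀ i ∈ s, u i * t ∈ V k := by
  classical
  induction s using Finset.induction_on with
  | empty => exact ⟨1, 1, hV1, one_ne_zero, by simp⟩
  | insert i s hi ih =>
    obtain ⟨k, t, ht, ht0, hts⟩ := ih
    obtain ⟨k', s₁, hs₁, s₂, hs₂, hs₂0, he⟩ := hBA (u i)
    refine ⟨k + k', t * s₂, hVmul _ _ _ _ ht hs₂, mul_ne_zero ht0 hs₂0, ?_⟩
    intro j hj
    rw [Finset.mem_insert] at hj
    rcases hj with rfl | hj
    · have e : u j * (t * s₂) = t * s₁ := by rw [← he]; ring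
      rw [e]
      exact hVmul _ _ _ _ ht hs₁
    · have e : u j * (t * s₂) = (u j * t) * s₂ := by ring
      rw [e]
      exact hVmul _ _ _ _ (hts j hj) hs₂

end Filtration

section Galois

variable {K F G : Type*} [Field K] [Field F] [Algebra K F] [Group G] [Fintype G]
  [MulSemiringAction G F]

/-- Every `f : F` is moved into some `W k` by a nonzero factor `φ s` with `s ∈ L k`. -/
lemma vol_exists_scale (φ : F →ₐ[K] F) (L W : ℕ → Submodule K F)
    (hfix : ∀ x : F, (∀ a : G, a • x = x) → ∃ y, φ y = x)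
    (hL1 : (1 : F) ∈ L 1)
    (hLmul : ∀ k l (x y : F), x ∈ L k → y ∈ L l → x * y ∈ L (k + l))
    (hmap : ∀ k (x : F), x ∈ L k → φ x ∈ W k)
    (hint : ∀ (k m : ℕ) (y : F) (c : ℕ → F), (∀ i < m, c i ∈ W ((m - i) * k)) →
      y ^ m + ∑ i ∈ Finset.range m, c i * y ^ i = 0 → y ∈ W k)
    (hBA : ∀ u : F, ∃ k, ∃ s₁ ∈ L k, ∃ s₂ ∈ L k, s₂ ≠ 0 ∧ u * s₂ = s₁)
    (f : F) : ∃ k, ∃ s ∈ L k, s ≠ 0 ∧ f * φ s ∈ W k := by
  classical
  set p := prodXSubSMul G F f with hp
  set m := p.natDegree with hm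
  have hmonic : p.Monic := prodXSubSMul.monic G F f
  have heval : p.eval f = 0 := prodXSubSMul.eval G F f
  have hcoef : ∀ i, ∃ y, φ y = p.coeff i := fun i =>
    hfix _ (fun a => prodXSubSMul.coeff G F f a i)
  choose y hy using hcoef
  obtain ⟨k, s, hs, hs0, hys⟩ := vol_common_denom_one L hL1 hLmul hBA (Finset.range m) y
  refine ⟨k, s, hs, hs0, ?_⟩
  apply hint k m (f * φ s) (fun i => p.coeff i * φ s ^ (m - i))
  · intro i hi
    have e : p.coeff i * φ s ^ (m - i) = φ (y i * s * s ^ (m - i - 1)) := by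
      rw [map_mul, map_mul, map_pow, hy, mul_assoc, ← pow_succ']
      congr 2
      omega
    rw [e]
    apply hmap
    have h1 := vol_mul_pow_mem L hLmul k (y i * s) s (hys i (Finset.mem_range.mpr hi)) hs
      (m - i - 1)
    have e2 : m - i - 1 + 1 = m - i := by omega
    rw [e2] at h1
    exact h1
  · have h1 : p.eval f = f ^ m + ∑ i ∈ Finset.range m, p.coeff i * f ^ i := by
      rw [Polynomial.eval_eq_sum_range, Finset.sum_range_succ, ← hm, hmonic.coeff_natDegree,
        one_mul, add_comm]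
    rw [heval] at h1
    have h2 : (f * φ s) ^ m + ∑ i ∈ Finset.range m, (p.coeff i * φ s ^ (m - i)) * (f * φ s) ^ i
        = φ s ^ m * (f ^ m + ∑ i ∈ Finset.range m, p.coeff i * f ^ i) := by
      rw [mul_add, Finset.mul_sum, mul_pow, mul_comm]
      congr 1
      refine Finset.sum_congr rfl fun i hi => ?_
      have hi' : i ≤ m := (Finset.mem_range.mp hi).le
      have e3 : φ s ^ m = φ s ^ (m - i) * φ s ^ i := by rw [← pow_add, Nat.sub_add_cancel hi']
      rw [e3, mul_pow]
      ring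
    rw [h2, ← h1, mul_zero]

/-- There is a basis of `F` over the fixed field, of cardinality `#G`, inside one `W k₁`. -/
lemma vol_exists_basis (hfaith : ∀ a : G, (∀ x : F, a • x = x) → a = 1)
    (φ : F →ₐ[K] F) (L W : ℕ → Submodule K F)
    (hfix : ∀ x : F, (∀ a : G, a • x = x) → ∃ y, φ y = x)
    (hfix' : ∀ (y : F) (a : G), a • φ y = φ y)
    (hL1 : (1 : F) ∈ L 1)
    (hLmul : ∀ k l (x y : F), x ∈ L k → y ∈ L l → x * y ∈ L (k + l))
    (hWmul : ∀ k l (x y : F), x ∈ W k → y ∈ W l → x * y ∈ W (k + l))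
    (hmap : ∀ k (x : F), x ∈ L k → φ x ∈ W k)
    (hint : ∀ (k m : ℕ) (y : F) (c : ℕ → F), (∀ i < m, c i ∈ W ((m - i) * k)) →
      y ^ m + ∑ i ∈ Finset.range m, c i * y ^ i = 0 → y ∈ W k)
    (hBA : ∀ u : F, ∃ k, ∃ s₁ ∈ L k, ∃ s₂ ∈ L k, s₂ ≠ 0 ∧ u * s₂ = s₁) :
    ∃ k1, ∃ e : Module.Basis (Fin (Fintype.card G)) (FixedPoints.subfield G F) F,
      ∀ i, e i ∈ W k1 := by
  classical
  have hfaithful : FaithfulSMul G F := ⟨fun {a b} h => by
    have h1 : ∀ x : F, (b⁻¹ * a) • x = x := fun x => by rw [mul_smul, h x, inv_smul_smul]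
    exact (inv_mul_eq_one.mp (hfaith _ h1)).symm⟩
  have hd : Module.finrank (FixedPoints.subfield G F) F = Fintype.card G :=
    FixedPoints.finrank_eq_card G F
  let b : Module.Basis (Fin (Fintype.card G)) (FixedPoints.subfield G F) F :=
    Module.finBasisOfFinrankEq (FixedPoints.subfield G F) F hd
  have hW1 : (1 : F) ∈ W 1 := by
    have := hmap 1 1 hL1
    rwa [map_one] at this
  have hWmono : Monotone W := vol_mono_of_one_mem W hW1 hWmul
  have hφinj : Function.Injective φ := φ.toRingHom.injective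
  have hex := fun i => vol_exists_scale (G := G) φ L W hfix hL1 hLmul hmap hint hBA (b i)
  choose k s hs hs0 hsW using hex
  let c : Fin (Fintype.card G) → (FixedPoints.subfield G F)ˣ := fun i =>
    Units.mk0 (⟨φ (s i), fun a => hfix' (s i) a⟩ : FixedPoints.subfield G F) (by
      intro h0
      have h1 : φ (s i) = 0 := congrArg Subtype.val h0
      exact hs0 i (hφinj (by rw [h1, map_zero])))
  refine ⟨∑ i, k i, b.unitsSMul c, fun i => ?_⟩
  rw [Module.Basis.unitsSMul_apply]
  have e : c i • b i = b i * φ (s i) := by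
    rw [Units.smul_def, Subfield.smul_def, smul_eq_mul, mul_comm]
    rfl
  rw [e]
  exact hWmono (Finset.single_le_sum (fun _ _ => Nat.zero_le _) (Finset.mem_univ i)) (hsW i)

variable {ι : Type*} [Fintype ι]

omit [Fintype G] in
/-- **Lower bound** `#ι · dim L k ≤ dim W (k + k₁)` for a basis `e : ι → F` inside `W k₁`. -/
lemma vol_tr_lower (φ : F →ₐ[K] F) (L W : ℕ → Submodule K F)
    (hfix' : ∀ (y : F) (a : G), a • φ y = φ y)
    (hWmul : ∀ k l (x y : F), x ∈ W k → y ∈ W l → x * y ∈ W (k + l))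
    (hmap : ∀ k (x : F), x ∈ L k → φ x ∈ W k)
    (e : Module.Basis ι (FixedPoints.subfield G F) F) (k1 : ℕ) (he : ∀ i, e i ∈ W k1)
    (k : ℕ) (hLfin : Module.Finite K (L k)) (hWfin : Module.Finite K (W (k + k1))) :
    Fintype.card ι * Module.finrank K (L k) ≤ Module.finrank K (W (k + k1)) := by
  classical
  have hφinj : Function.Injective φ := φ.toRingHom.injective
  let Λ0 : (ι → ↥(L k)) →ₗ[K] F :=
    ∑ i : ι, (LinearMap.mulRight K (e i)) ∘ₗ φ.toLinearMap ∘ₗ (L k).subtype ∘ₗ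
      (LinearMap.proj i : (ι → ↥(L k)) →ₗ[K] ↥(L k))
  have hΛ0 : ∀ v : ι → ↥(L k), Λ0 v = ∑ i : ι, φ (v i : F) * e i := by
    intro v
    simp [Λ0, LinearMap.sum_apply]
  have hterm : ∀ (v : ι → ↥(L k)) (i : ι), φ (v i : F) * e i ∈ W (k + k1) :=
    fun v i => hWmul _ _ _ _ (hmap k _ (v i).2) (he i)
  let Λ : (ι → ↥(L k)) →ₗ[K] ↥(W (k + k1)) :=
    LinearMap.codRestrict (W (k + k1)) Λ0 (fun v => by
      rw [hΛ0]
      exact Submodule.sum_mem _ fun i _ => hterm v i)
  have hΛ : Function.Injective Λ := by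
    rw [← LinearMap.ker_eq_bot, LinearMap.ker_eq_bot']
    intro v hv
    have h1 : ∑ i : ι, φ (v i : F) * e i = 0 := by
      have := congrArg (fun y : ↥(W (k + k1)) => (y : F)) hv
      simp only [Λ, LinearMap.codRestrict_apply, ZeroMemClass.coe_zero] at this
      rw [hΛ0] at this
      exact this
    have h2 : ∑ i : ι, (⟨φ (v i : F), fun a => hfix' _ a⟩ : FixedPoints.subfield G F) • e i = 0 := by
      rw [← h1]
      refine Finset.sum_congr rfl fun i _ => ?_
      rw [Subfield.smul_def, smul_eq_mul]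
    have h3 := Fintype.linearIndependent_iff.mp e.linearIndependent _ h2
    funext i
    have h4 : φ (v i : F) = 0 := congrArg Subtype.val (h3 i)
    exact Subtype.ext (hφinj (h4.trans (map_zero φ).symm))
  have h7 := LinearMap.finrank_le_finrank_of_injective hΛ
  rw [Module.finrank_pi_fintype, Finset.sum_const, Finset.card_univ, smul_eq_mul] at h7
  exact h7

/-- **Upper bound** `dim W k ≤ #ι · dim L (k + k₁)` (and finiteness of `W k`). -/
lemma vol_tr_upper (hK : ∀ (a : G) (c : K), a • algebraMap K F c = algebraMap K F c)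
    (hfaith : ∀ a : G, (∀ x : F, a • x = x) → a = 1)
    (φ : F →ₐ[K] F) (L W : ℕ → Submodule K F)
    (hfix : ∀ x : F, (∀ a : G, a • x = x) → ∃ y, φ y = x)
    (hWmul : ∀ k l (x y : F), x ∈ W k → y ∈ W l → x * y ∈ W (k + l))
    (hWG : ∀ (a : G) k (x : F), x ∈ W k → a • x ∈ W k)
    (hWL : ∀ k (x : F), φ x ∈ W k → x ∈ L k)
    (e : Module.Basis ι (FixedPoints.subfield G F) F) (k1 : ℕ) (he : ∀ i, e i ∈ W k1)
    (k : ℕ) (hLfin : Module.Finite K (L (k + k1))) :
    Module.Finite K (W k) ∧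
      Module.finrank K (W k) ≤ Fintype.card ι * Module.finrank K (L (k + k1)) := by
  classical
  have hφinj : Function.Injective φ.toLinearMap := φ.toRingHom.injective
  set P : Submodule K F := (L (k + k1)).map φ.toLinearMap with hP
  let eP := Submodule.equivMapOfInjective φ.toLinearMap hφinj (L (k + k1))
  have hPfin : Module.Finite K P := Module.Finite.equiv eP
  have hPrank : Module.finrank K P = Module.finrank K (L (k + k1)) := eP.finrank_eq.symm
  -- the action as linear maps, and the trace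
  let act : G → (F →ₗ[K] F) := fun σ =>
    { toFun := fun x => σ • x
      map_add' := smul_add σ
      map_smul' := fun c x => by
        simp only [RingHom.id_apply]
        rw [Algebra.smul_def, smul_mul', hK, ← Algebra.smul_def] }
  let tr : F →ₗ[K] F := ∑ σ : G, act σ
  have htr : ∀ x : F, tr x = ∑ σ : G, σ • x := by
    intro x
    simp [tr, act, LinearMap.sum_apply]
  have htrfix : ∀ (x : F) (a : G), a • tr x = tr x := by
    intro x a
    rw [htr, Finset.smul_sum]
    simp only [← mul_smul]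
    exact Fintype.sum_bijective (fun σ => a * σ) (Group.mulLeft_bijective a) _ _ (fun σ => rfl)
  have hcomp : ∀ (i : ι) (x : F), x ∈ W k → tr (x * e i) ∈ P := by
    intro i x hx
    have h1 : tr (x * e i) ∈ W (k + k1) := by
      rw [htr]
      exact Submodule.sum_mem _ fun σ _ => hWG σ _ _ (hWmul _ _ _ _ hx (he i))
    obtain ⟨v, hv⟩ := hfix _ (htrfix (x * e i))
    refine Submodule.mem_map.mpr ⟨v, ?_, hv⟩
    apply hWL
    rw [hv]
    exact h1
  let Θ : ↥(W k) →ₗ[K] (ι → ↥P) :=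
    LinearMap.pi fun i =>
      LinearMap.codRestrict P (tr ∘ₗ (LinearMap.mulRight K (e i)) ∘ₗ (W k).subtype)
        (fun x => hcomp i x x.2)
  have hΘ : Function.Injective Θ := by
    rw [← LinearMap.ker_eq_bot, LinearMap.ker_eq_bot']
    intro x hx
    have h1 : ∀ i : ι, tr ((x : F) * e i) = 0 := by
      intro i
      have h2 := congrArg (fun f : ι → ↥P => ((f i : ↥P) : F)) hx
      simp only [Θ, LinearMap.pi_apply, Pi.zero_apply, ZeroMemClass.coe_zero] at h2
      exact h2
    have h3 : ∀ y : F, ∑ σ : G, σ • ((x : F) * y) = 0 := by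
      intro y
      rw [← htr]
      have hy : y = ∑ i : ι, ((e.repr y i : FixedPoints.subfield G F) : F) * e i := by
        conv_lhs => rw [← e.sum_repr y]
        refine Finset.sum_congr rfl fun i _ => ?_
        rw [Subfield.smul_def, smul_eq_mul]
      rw [hy, Finset.mul_sum, map_sum]
      refine Finset.sum_eq_zero fun i _ => ?_
      have e1 : (x : F) * (((e.repr y i : FixedPoints.subfield G F) : F) * e i) =
          ((e.repr y i : FixedPoints.subfield G F) : F) * ((x : F) * e i) := by ring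
      rw [e1, htr]
      have e2 : ∀ σ : G, σ • (((e.repr y i : FixedPoints.subfield G F) : F) * ((x : F) * e i)) =
          ((e.repr y i : FixedPoints.subfield G F) : F) * σ • ((x : F) * e i) := by
        intro σ
        rw [smul_mul', (e.repr y i).2 σ]
      simp only [e2]
      rw [← Finset.mul_sum, ← htr, h1 i, mul_zero]
    exact Subtype.ext (vol_tr_nondeg hfaith (x : F) h3)
  have hfin : Module.Finite K (W k) := Module.Finite.of_injective Θ hΘ
  refine ⟨hfin, ?_⟩
  have h5 := LinearMap.finrank_le_finrank_of_injective hΘ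
  rw [Module.finrank_pi_fintype, Finset.sum_const, Finset.card_univ, smul_eq_mul, hPrank] at h5
  exact h5

end Galois

/-! ## Part D: assembly -/

section Main

variable {K F : Type*} [Field K] [Field F] [Algebra K F]

/-- Multiplication by a nonzero element identifies two subspaces: equal dimensions. -/
lemma vol_finrank_eq_of_mul (A B : Submodule K F) (u : F) (hu : u ≠ 0)
    (h : ∀ x : F, x ∈ A ↔ u * x ∈ B) : Module.finrank K A = Module.finrank K B := by
  have hinj : Function.Injective (LinearMap.mulLeft K u) := fun x y hxy => by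
    simp only [LinearMap.mulLeft_apply] at hxy
    exact mul_left_cancel₀ hu hxy
  have e : A.map (LinearMap.mulLeft K u) = B := by
    ext y
    simp only [Submodule.mem_map, LinearMap.mulLeft_apply]
    constructor
    · rintro ⟨x, hx, rfl⟩
      exact (h x).mp hx
    · intro hy
      refine ⟨u⁻¹ * y, (h _).mpr ?_, ?_⟩
      · rwa [mul_inv_cancel_left₀ hu]
      · rw [mul_inv_cancel_left₀ hu]
  rw [← e]
  exact (Submodule.equivMapOfInjective _ hinj A).finrank_eq

/-- An algebraically independent family of the size of the transcendence degree. -/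
lemma vol_exists_algIndep (g : ℕ) (htr : Algebra.trdeg K F = (g : Cardinal)) :
    ∃ t : Fin g → F, AlgebraicIndependent K t := by
  obtain ⟨ι, x, hx⟩ := exists_isTranscendenceBasis' K F
  have hcard : Cardinal.mk ι = (g : Cardinal) := by rw [hx.cardinalMk_eq_trdeg, htr]
  obtain ⟨eqv⟩ := Cardinal.mk_eq_nat_iff.mp hcard
  exact ⟨x ∘ eqv.symm, hx.1.comp _ eqv.symm.injective⟩

/-- **Lower bound (V1)** for a filtration with `1` in degree one. -/
theorem vol_lower_one (L : ℕ → Submodule K F) (hLfin : ∀ k, Module.Finite K (L k))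
    (hL1 : (1 : F) ∈ L 1)
    (hLmul : ∀ k l (x y : F), x ∈ L k → y ∈ L l → x * y ∈ L (k + l))
    (hBA : ∀ u : F, ∃ k, ∃ s₁ ∈ L k, ∃ s₂ ∈ L k, s₂ ≠ 0 ∧ u * s₂ = s₁)
    (g : ℕ) (u : Fin g → F) (hu : AlgebraicIndependent K u) :
    ∃ k0, 0 < k0 ∧ ∀ m, 1 ≤ g * m → (m + 1) ^ g ≤ Module.finrank K (L (g * m * k0)) := by
  have hLmono := vol_mono_of_one_mem L hL1 hLmul
  let L' : ℕ → Submodule K F := fun k => L k ⊔ Submodule.span K {(1 : F)}
  have hL'eq : ∀ k, 1 ≤ k → L' k = L k := by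
    intro k hk
    apply sup_eq_left.mpr
    rw [Submodule.span_singleton_le_iff_mem]
    exact hLmono hk hL1
  have hmem : ∀ k (x : F), x ∈ L' k ↔ ∃ y ∈ L k, ∃ c : K, y + c • (1 : F) = x := by
    intro k x
    simp only [L', Submodule.mem_sup, Submodule.mem_span_singleton]
    constructor
    · rintro ⟨y, hy, z, ⟨c, rfl⟩, rfl⟩
      exact ⟨y, hy, c, rfl⟩
    · rintro ⟨y, hy, c, rfl⟩
      exact ⟨y, hy, _, ⟨c, rfl⟩, rfl⟩
  have hL'fin : ∀ k, Module.Finite K (L' k) := by
    intro k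
    have := hLfin k
    infer_instance
  have hL'mono : Monotone L' := fun k l hkl => sup_le_sup_right (hLmono hkl) _
  have hL'1 : (1 : F) ∈ L' 0 := Submodule.mem_sup_right (Submodule.mem_span_singleton_self 1)
  have hL'mul : ∀ k l (x y : F), x ∈ L' k → y ∈ L' l → x * y ∈ L' (k + l) := by
    intro k l x y hx hy
    obtain ⟨x₀, hx₀, c, rfl⟩ := (hmem k x).mp hx
    obtain ⟨y₀, hy₀, c', rfl⟩ := (hmem l y).mp hy
    refine (hmem (k + l) _).mpr ⟨x₀ * y₀ + c' • x₀ + c • y₀, ?_, c * c', ?_⟩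
    · refine Submodule.add_mem _ (Submodule.add_mem _ (hLmul _ _ _ _ hx₀ hy₀) ?_) ?_
      · exact Submodule.smul_mem _ _ (hLmono (Nat.le_add_right k l) hx₀)
      · exact Submodule.smul_mem _ _ (hLmono (Nat.le_add_left l k) hy₀)
    · simp only [Algebra.smul_def, mul_one, map_mul]
      ring
  have hBA' : ∀ u : F, ∃ k, ∃ s₁ ∈ L' k, ∃ s₂ ∈ L' k, s₂ ≠ 0 ∧ u * s₂ = s₁ := by
    intro u
    obtain ⟨k, s₁, hs₁, s₂, hs₂, h0, he⟩ := hBA u
    exact ⟨k, s₁, Submodule.mem_sup_left hs₁, s₂, Submodule.mem_sup_left hs₂, h0, he⟩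
  obtain ⟨k0, hk0, h⟩ := vol_lower L' hL'fin hL'mono hL'1 hL'mul hBA' g u hu
  refine ⟨k0, hk0, fun m hm => ?_⟩
  have h1 := h m
  rwa [hL'eq _ (Nat.mul_pos hm hk0)] at h1

/-- **The abstract volume count**, unbundled form. -/
theorem vol_main {G : Type*} [Group G] [Finite G] [MulSemiringAction G F] (g n : ℕ) (hn : 0 < n)
    (φ : F →ₐ[K] F) (L W : ℕ → Submodule K F)
    (hK : ∀ (a : G) (c : K), a • algebraMap K F c = algebraMap K F c)
    (hfaith : ∀ a : G, (∀ x : F, a • x = x) → a = 1)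
    (hfixed : ∀ x : F, (∀ a : G, a • x = x) ↔ x ∈ φ.range)
    (hL1 : (1 : F) ∈ L 1)
    (hLmul : ∀ k l (x y : F), x ∈ L k → y ∈ L l → x * y ∈ L (k + l))
    (hWmul : ∀ k l (x y : F), x ∈ W k → y ∈ W l → x * y ∈ W (k + l))
    (hmap : ∀ k (x : F), x ∈ L k → φ x ∈ W k)
    (hWG : ∀ (a : G) k (x : F), x ∈ W k → a • x ∈ W k)
    (hWL : ∀ k (x : F), φ x ∈ W k → x ∈ L k)
    (hint : ∀ (k m : ℕ) (y : F) (c : ℕ → F), (∀ i < m, c i ∈ W ((m - i) * k)) →
      y ^ m + ∑ i ∈ Finset.range m, c i * y ^ i = 0 → y ∈ W k)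
    (hBA : ∀ u : F, ∃ k, ∃ s₁ ∈ L k, ∃ s₂ ∈ L k, s₂ ≠ 0 ∧ u * s₂ = s₁)
    (hLfin : ∀ k, Module.Finite K (L k))
    (C : ℕ) (hUB : ∀ k, Module.finrank K (L k) ≤ C * (k + 1) ^ g)
    (N : ℕ) (hN : 0 < N) (u : F) (hu : u ≠ 0)
    (hT : ∀ (j : ℕ) (x : F), x ∈ W (N * j) ↔ u ^ j * x ∈ L (N * n ^ 2 * j))
    (t : Fin g → F) (ht : AlgebraicIndependent K t) :
    Nat.card G = n ^ (2 * g) := by
  classical
  have : Fintype G := Fintype.ofFinite G
  rw [Nat.card_eq_fintype_card]
  have hdpos : 1 ≤ Fintype.card G := Fintype.card_pos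
  have hLmono : Monotone L := vol_mono_of_one_mem L hL1 hLmul
  have hW1 : (1 : F) ∈ W 1 := by
    have := hmap 1 1 hL1
    rwa [map_one] at this
  have hWmono : Monotone W := vol_mono_of_one_mem W hW1 hWmul
  have hfix : ∀ x : F, (∀ a : G, a • x = x) → ∃ y, φ y = x := fun x hx => (hfixed x).mp hx
  have hfix' : ∀ (y : F) (a : G), a • φ y = φ y := fun y a => (hfixed (φ y)).mpr ⟨y, rfl⟩ a
  obtain ⟨k1, e, he⟩ := vol_exists_basis hfaith φ L W hfix hfix' hL1 hLmul hWmul hmap hint hBA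
  have hup := fun k => vol_tr_upper hK hfaith φ L W hfix hWmul hWG hWL e k1 he k (hLfin _)
  have hWfin : ∀ k, Module.Finite K (W k) := fun k => (hup k).1
  have hlow := fun k => vol_tr_lower φ L W hfix' hWmul hmap e k1 he k (hLfin _) (hWfin _)
  simp only [Fintype.card_fin] at hup hlow
  -- monotonicity of the dimensions
  have haL : Monotone fun k => Module.finrank K (L k) := by
    intro k l hkl
    have := hLfin l
    exact Submodule.finrank_mono (hLmono hkl)
  have haW : Monotone fun k => Module.finrank K (W k) := by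
    intro k l hkl
    have := hWfin l
    exact Submodule.finrank_mono (hWmono hkl)
  have hTrank : ∀ j, Module.finrank K (W (N * j)) = Module.finrank K (L (N * n ^ 2 * j)) :=
    fun j => vol_finrank_eq_of_mul _ _ (u ^ j) (pow_ne_zero j hu) (hT j)
  have ha1 : ∀ k, 1 ≤ k → 1 ≤ Module.finrank K (L k) := by
    intro k hk
    have := hLfin k
    have h1 : (⟨1, hLmono hk hL1⟩ : ↥(L k)) ≠ 0 := by
      intro h0
      exact one_ne_zero (congrArg Subtype.val h0)
    exact Nat.succ_le_of_lt (Module.finrank_pos_iff_exists_ne_zero.mpr ⟨_, h1⟩)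
  have hE1 : ∀ j, 1 ≤ j → Fintype.card G * Module.finrank K (L (N * j)) ≤
      Module.finrank K (L (N * n ^ 2 * (j + k1))) := by
    intro j _
    calc Fintype.card G * Module.finrank K (L (N * j))
        ≤ Module.finrank K (W (N * j + k1)) := hlow (N * j)
      _ ≤ Module.finrank K (W (N * (j + k1))) := haW (by nlinarith)
      _ = Module.finrank K (L (N * n ^ 2 * (j + k1))) := hTrank (j + k1)
  have hE2 : ∀ j, 1 ≤ j → Module.finrank K (L (N * n ^ 2 * j)) ≤
      Fintype.card G * Module.finrank K (L (N * (j + k1))) := by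
    intro j _
    calc Module.finrank K (L (N * n ^ 2 * j)) = Module.finrank K (W (N * j)) := (hTrank j).symm
      _ ≤ Fintype.card G * Module.finrank K (L (N * j + k1)) := (hup (N * j)).2
      _ ≤ Fintype.card G * Module.finrank K (L (N * (j + k1))) :=
          Nat.mul_le_mul_left _ (haL (by nlinarith))
  rcases Nat.lt_or_ge n 2 with hn1 | hn2
  · have h1 : n = 1 := by omega
    subst h1
    have h2 := vol_growth_one g (Fintype.card G) N k1 C (fun k => Module.finrank K (L k)) hUB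
      (ha1 N hN) (fun j hj => by
        have h3 := hE1 j hj
        rwa [one_pow, mul_one] at h3)
    rw [one_pow]
    omega
  · obtain ⟨k0, hk0, hLB⟩ := vol_lower_one L hLfin hL1 hLmul hBA g t ht
    refine vol_growth g n (Fintype.card G) N k1 k0 (C * 2 ^ g) hn2 hN hk0
      (fun k => Module.finrank K (L k)) haL (fun k hk => ?_) ha1 hLB hE1 hE2
    calc Module.finrank K (L k) ≤ C * (k + 1) ^ g := hUB k
      _ ≤ C * (2 * k) ^ g := Nat.mul_le_mul_left _ (Nat.pow_le_pow_left (by omega) g)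
      _ = C * 2 ^ g * k ^ g := by rw [mul_pow, mul_assoc]

end Main

end Fermat.Agent.S26.Vol

namespace Fermat.Agent.S26

/-- P0 EXPORT.  The order of `G` is `n ^ (2 g)`. -/
theorem VolData.card_eq {K F : Type*} [Field K] [Field F] [Algebra K F] {g n : ℕ}
    {G : Type*} [CommGroup G] [Finite G] [MulSemiringAction G F]
    (V : VolData K F g n G) (hn : 0 < n) (htr : Algebra.trdeg K F = (g : Cardinal)) :
    Nat.card G = n ^ (2 * g) := by
  obtain ⟨C, hC⟩ := V.bound_L
  obtain ⟨N, hN, u, hu, hT⟩ := V.equiv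
  obtain ⟨t, ht⟩ := Vol.vol_exists_algIndep g htr
  exact Vol.vol_main g n hn V.φ V.L V.W V.smul_algebraMap V.faithful V.fixed_iff V.one_mem_L
    (fun _ _ _ _ hx hy => V.mul_mem_L hx hy) (fun _ _ _ _ hx hy => V.mul_mem_W hx hy)
    (fun _ _ hx => V.map_mem_W hx) (fun a _ _ hx => V.smul_mem_W a hx)
    (fun _ _ hx => V.mem_L_of_map_mem_W hx) V.integral_mem_W
    (fun u => by
      obtain ⟨k, s₁, s₂, h1, h2, h3, h4⟩ := V.exists_frac u
      exact ⟨k, s₁, h1, s₂, h2, h3, h4⟩)
    V.finite_L C hC N hN u hu hT t ht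

end Fermat.Agent.S26
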