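import Fermat.Agent.S26.AVDefs
import Fermat.Agent.S26.VolAbstract
import Fermat.Agent.S26.Geom
import Fermat.Agent.S26.UBAlg
import Fermat.Agent.S26.SETUP.P2Exports3196
import Fermat.Agent.S26.ISOG.TopExports
import Fermat.Agent.S26.DIV.IntegralExport6464
import Fermat.Agent.S26.D0UB.Core1456

/-!
# S26: top-level skeleton (FROZEN interface statements; lead helper3926)

Every statement below is the EXPORT of one package (see BOARD.md).  The final theorem
`result_of_exports` is assembled from them (package P16 INTEG proves `exists_volData`).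

Standing hypotheses = the hypotheses of the frozen statement S26.
-/

set_option autoImplicit false

universe u

open CategoryTheory CategoryTheory.Limits AlgebraicGeometry NeronModelInfra GoodReductionJacobian

namespace Fermat.Agent.S26

noncomputable section

variable {K : Type u} [Field K] [IsAlgClosed K] {A : Scheme.{u}}
  {f : A ⟶ Spec (CommRingCat.of K)}

/-! ## P2 SETUP -/

/-- P2 EXPORT 1: `A` is integral. -/
theorem isIntegral_A (L : RelativeGroupLaw K f) (hA : AbelianSchemePropertyBundle K f) :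
    IsIntegral A := by
  exact SETUP.X3196.isIntegral_A L hA

/-- P2 EXPORT 2: the transcendence degree of `K(A)` over `K` is `g`. -/
theorem trdeg_FF [IsIntegral A] (L : RelativeGroupLaw K f)
    (hA : AbelianSchemePropertyBundle K f) (g : ℕ) [SmoothOfRelativeDimension g f] :
    Algebra.trdeg K (FF f) = (g : Cardinal.{u}) := by
  exact SETUP.X3196.trdeg_FF L hA g

/-- P2 EXPORT 3a: the product of two `n`-torsion points is `n`-torsion (commutative case). -/
theorem isTorsionPoint_mul (L : RelativeGroupLaw K f) (hc : L.IsCommutative) (n : ℕ)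
    {x y : Pts f} (hx : L.IsTorsionPoint (𝟙 _) n x) (hy : L.IsTorsionPoint (𝟙 _) n y) :
    L.IsTorsionPoint (𝟙 _) n (L.mul (𝟙 _) x y) := by
  exact SETUP.X3196.isTorsionPoint_mul L hc n hx hy

/-- P2 EXPORT 3b: the inverse of an `n`-torsion point is `n`-torsion. -/
theorem isTorsionPoint_inv (L : RelativeGroupLaw K f) (hc : L.IsCommutative) (n : ℕ)
    {x : Pts f} (hx : L.IsTorsionPoint (𝟙 _) n x) :
    L.IsTorsionPoint (𝟙 _) n (L.inv (𝟙 _) x) := by
  exact SETUP.X3196.isTorsionPoint_inv L hc n hx

/-- The group structure on the `n`-torsion points. -/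
def torsCommGroup (L : RelativeGroupLaw K f) (hc : L.IsCommutative) (n : ℕ) :
    CommGroup (TorsPts L n) where
  mul x y := ⟨L.mul (𝟙 _) x.1 y.1, isTorsionPoint_mul L hc n x.2 y.2⟩
  one := ⟨L.one (𝟙 _), L.isTorsionPoint_unit (𝟙 _) n⟩
  inv x := ⟨L.inv (𝟙 _) x.1, isTorsionPoint_inv L hc n x.2⟩
  mul_assoc x y z := Subtype.ext (L.mul_assoc (𝟙 _) x.1 y.1 z.1)
  one_mul x := Subtype.ext (L.one_mul (𝟙 _) x.1)
  mul_one x := Subtype.ext (L.mul_one (𝟙 _) x.1)
  inv_mul_cancel x := Subtype.ext (L.inv_mul_cancel (𝟙 _) x.1)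
  mul_comm x y := Subtype.ext (hc (𝟙 _) x.1 y.1)

/-- P2 EXPORT 4: translations act on the function field (`a • u = t_a^* u`);
the structure maps are `pullFun (transl L a)`. -/
def torsAction [IsIntegral A] (L : RelativeGroupLaw K f) (hc : L.IsCommutative) (n : ℕ) :
    letI := torsCommGroup L hc n
    MulSemiringAction (TorsPts L n) (FF f) :=
  letI := torsCommGroup L hc n
  { smul := fun a u => pullFun (transl L a.1) u
    one_smul := fun u => SETUP.X3196.pullFun_transl_one L u
    mul_smul := fun a b u => SETUP.X3196.pullFun_transl_mul L a.1 b.1 u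
    smul_zero := fun a => SETUP.X3196.pullFun_transl_zero L a.1
    smul_add := fun a u v => SETUP.X3196.pullFun_transl_add L a.1 u v
    smul_one := fun a => SETUP.X3196.pullFun_transl_one' L a.1
    smul_mul := fun a u v => SETUP.X3196.pullFun_transl_mul' L a.1 u v }

/-- P2 EXPORT 5: translations are `K`-linear on the function field. -/
theorem pullFun_transl_algebraMap [IsIntegral A] (L : RelativeGroupLaw K f) (a : Pts f) (c : K) :
    pullFun (transl L a) (algebraMap K (FF f) c) = algebraMap K (FF f) c := by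
  exact SETUP.X3196.pullFun_transl_algebraMap L a c

/-! ## P3 ISOG  (`n` invertible in `K`) -/

/-- P3 EXPORT 1: `[n]^*` is a `K`-algebra endomorphism of the function field. -/
theorem exists_nsmul_algHom [IsIntegral A] (L : RelativeGroupLaw K f) (hc : L.IsCommutative)
    (hA : AbelianSchemePropertyBundle K f) (n : ℕ) (hn : (n : K) ≠ 0) :
    ∃ φ : FF f →ₐ[K] FF f, ∀ x : FF f, φ x = pullFun (L.schemeNsmul n) x := by
  exact ISOG.exists_nsmul_algHom L hc hA n hn

/-- P3 EXPORT 2: there are finitely many `n`-torsion points. -/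
theorem finite_TorsPts (L : RelativeGroupLaw K f) (hc : L.IsCommutative)
    (hA : AbelianSchemePropertyBundle K f) (n : ℕ) (hn : (n : K) ≠ 0) :
    Finite (TorsPts L n) := by
  exact ISOG.finite_TorsPts L hc hA n hn

/-- P3 EXPORT 3: a non-trivial torsion translation acts non-trivially on the function field. -/
theorem tors_faithful [IsIntegral A] (L : RelativeGroupLaw K f) (hc : L.IsCommutative)
    (hA : AbelianSchemePropertyBundle K f) (n : ℕ) (a : TorsPts L n)
    (h : ∀ x : FF f, pullFun (transl L a.1) x = x) : a.1 = L.one (𝟙 _) := by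
  exact ISOG.tors_faithful L hc hA n a h

/-- P3 EXPORT 4 (the heart of ISOG): the functions invariant under all `n`-torsion
translations are exactly the pullbacks under `[n]`. -/
theorem tors_fixed_iff [IsIntegral A] (L : RelativeGroupLaw K f) (hc : L.IsCommutative)
    (hA : AbelianSchemePropertyBundle K f) (n : ℕ) (hn : (n : K) ≠ 0) (x : FF f) :
    (∀ a : TorsPts L n, pullFun (transl L a.1) x = x) ↔
      ∃ y : FF f, pullFun (L.schemeNsmul n) y = x := by
  exact ISOG.tors_fixed_iff L hc hA n hn x

/-- P3 EXPORT 5: sections pull back to sections. -/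
theorem pullFun_nsmul_mem [IsIntegral A] (L : RelativeGroupLaw K f) (hc : L.IsCommutative)
    (hA : AbelianSchemePropertyBundle K f) (n : ℕ) (hn : (n : K) ≠ 0)
    (D : Fam A) (hD : D.IsCartier) {x : FF f} (hx : x ∈ LSpace f D) :
    pullFun (L.schemeNsmul n) x ∈ LSpace f (Fam.pullback (L.schemeNsmul n) D) := by
  exact ISOG.pullFun_nsmul_mem L hc hA n hn D hD hx

/-- P3 EXPORT 6: a function whose pullback under `[n]` is a section of `[n]^* D` is a section
of `D` (`[n]` is finite surjective and `A` is normal). -/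
theorem mem_of_pullFun_nsmul_mem [IsIntegral A] (L : RelativeGroupLaw K f)
    (hc : L.IsCommutative) (hA : AbelianSchemePropertyBundle K f) (n : ℕ) (hn : (n : K) ≠ 0)
    (D : Fam A) (hD : D.IsCartier) {x : FF f}
    (hx : pullFun (L.schemeNsmul n) x ∈ LSpace f (Fam.pullback (L.schemeNsmul n) D)) :
    x ∈ LSpace f D := by
  exact ISOG.mem_of_pullFun_nsmul_mem L hc hA n hn D hD hx

/-- P3 EXPORT 7: `L([n]^* D)` is stable under the `n`-torsion translations. -/
theorem pullFun_transl_mem [IsIntegral A] (L : RelativeGroupLaw K f) (hc : L.IsCommutative)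
    (hA : AbelianSchemePropertyBundle K f) (n : ℕ) (hn : (n : K) ≠ 0)
    (D : Fam A) (hD : D.IsCartier) (a : TorsPts L n) {x : FF f}
    (hx : x ∈ LSpace f (Fam.pullback (L.schemeNsmul n) D)) :
    pullFun (transl L a.1) x ∈ LSpace f (Fam.pullback (L.schemeNsmul n) D) := by
  exact ISOG.pullFun_transl_mem L hc hA n hn D hD a hx

/-- P3 EXPORT 8: pullback under `[n]` of a Cartier divisor is Cartier and commutes with powers
up to `Same`. -/
theorem isCartier_pullback_nsmul [IsIntegral A] (L : RelativeGroupLaw K f)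
    (hc : L.IsCommutative) (hA : AbelianSchemePropertyBundle K f) (n : ℕ) (hn : (n : K) ≠ 0)
    (D : Fam A) (hD : D.IsCartier) :
    (Fam.pullback (L.schemeNsmul n) D).IsCartier ∧
      ∀ k : ℕ, Fam.Same (Fam.pullback (L.schemeNsmul n) (D ^ k))
        ((Fam.pullback (L.schemeNsmul n) D) ^ k) := by
  exact ISOG.isCartier_pullback_nsmul L hc hA n hn D hD

/-! ## P6 VAR / P5 DIV facts used by the assembly -/

/-- P5 EXPORT (normality): graded integral closedness of `L(E^k)` on the normal variety `A`. -/
theorem integral_mem_LSpace [IsIntegral A] (L : RelativeGroupLaw K f)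
    (hA : AbelianSchemePropertyBundle K f) (E : Fam A) (hE : E.IsCartier)
    (k m : ℕ) (y : FF f) (c : ℕ → FF f) (hc : ∀ i < m, c i ∈ LSpace f (E ^ ((m - i) * k)))
    (hy : y ^ m + ∑ i ∈ Finset.range m, c i * y ^ i = 0) : y ∈ LSpace f (E ^ k) := by
  exact DIV.integral_mem_LSpace L hA E hE k m y c hc hy

/-! ## P7 D0UB -/

/-- P7 EXPORT 1: a symmetric effective Cartier divisor `D₀` such that every rational function
is a quotient of two sections of a multiple of `D₀`. -/
theorem exists_D0 [IsIntegral A] (L : RelativeGroupLaw K f) (hc : L.IsCommutative)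
    (hA : AbelianSchemePropertyBundle K f) :
    ∃ D₀ : Fam A, D₀.IsCartier ∧ D₀.IsEffective ∧
      Fam.Same (Fam.pullback (negMap L) D₀) D₀ ∧
      ∀ u : FF f, ∃ (k : ℕ) (s₁ s₂ : FF f),
        s₁ ∈ LSpace f (D₀ ^ k) ∧ s₂ ∈ LSpace f (D₀ ^ k) ∧ s₂ ≠ 0 ∧ u * s₂ = s₁ := by
  have := hA.smooth
  have := hA.proper
  obtain ⟨D0, hC, hE, hsym, hBA⟩ := D0UB.Export1456.exists_D0_of L (fun x => stalk_ufd_of_smooth f x)
  refine ⟨D0, hC, hE, ?_, hBA⟩
  rw [hsym]
  intro x
  rw [div_self', Units.val_one]
  exact ⟨Subring.one_mem _, by rw [inv_one]; exact Subring.one_mem _⟩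

/-- P7 EXPORT 2 (via P1 UBALG): polynomial growth of order `g` of `dim L(D^k)` for an
effective Cartier divisor on `A`. -/
theorem LSpace_pow_bound [IsIntegral A] (L : RelativeGroupLaw K f)
    (hA : AbelianSchemePropertyBundle K f) (g : ℕ) [SmoothOfRelativeDimension g f]
    (D : Fam A) (hD : D.IsCartier) (heff : D.IsEffective) :
    (∀ k : ℕ, Module.Finite K (LSpace f (D ^ k))) ∧
      ∃ C : ℕ, ∀ k : ℕ, Module.finrank K (LSpace f (D ^ k)) ≤ C * (k + 1) ^ g := by
  have := hA.proper
  have : Algebra.EssFiniteType K (FF f) := essFiniteType_FF f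
  obtain ⟨r, h, h0, hval⟩ := D0UB.Export1456.valBound f D hD heff
  exact ubalg g (trdeg_FF L hA g) (fun k => LSpace f (D ^ k)) r h h0 hval

end

end Fermat.Agent.S26
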