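import Fermat.Agent.S26.TChainD

/-!
# S26: the cube chain (umbrella; layered split of the frozen TChain.lean of lead helper3926)

`TChainDefs` (definitions) < `TChainA` (seesaw, cube3_curves, norm_descent, exists_curveProd_dominant)
< `TChainB` (cube3_curveProd) < `TChainC` (cubeX) < `TChainD` (quad).
-/
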