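import Fermat.Agent.S26.TChainDefs
import Fermat.Agent.S26.NORM5656.Export
import Fermat.Agent.S26.Curves.Export
import Fermat.Agent.S26.H2925.CurveDictP12
import Fermat.Agent.S26.CUBE3.Final2204

/-!
# S26: cube chain, layer A (P14 seesaw, P15 cube3_curves, P9 norm_descent, P8 exists_curveProd_dominant) (statements byte-identical to the frozen TChain.lean of lead helper3926)
-/

set_option autoImplicit false

universe u

open CategoryTheory CategoryTheory.Limits AlgebraicGeometry NeronModelInfra GoodReductionJacobian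

namespace Fermat.Agent.S26

noncomputable section

variable {K : Type u} [Field K]

/-- P14 EXPORT (seesaw for a curve times a smooth proper variety): a Cartier divisor on
`C × T` that is principal on every fibre `C × {t}` (`t` a `K`-point) and on `{c₀} × T` is
principal. -/
theorem seesaw [IsAlgClosed K] {C T : Scheme.{u}} (sC : C ⟶ Spec (CommRingCat.of K))
    (sT : T ⟶ Spec (CommRingCat.of K)) (hC : IsSmoothProperCurve sC)
    [IsIntegral C] [IsIntegral T] [Smooth sT] [IsProper sT] [IsIntegral (pullback sC sT)]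
    (c₀ : Pts sC) (D : Fam (pullback sC sT)) (hD : D.IsCartier)
    (h₁ : ∀ t : Pts sT, Fam.LinEquiv (Fam.pullc (sliceL sC t) D) 1)
    (h₂ : Fam.LinEquiv (Fam.pullc (sliceR c₀ sT) D) 1) :
    Fam.LinEquiv D 1 := by
  exact CxT2925.seesaw_final sC sT hC c₀ D hD h₁ h₂

/-- P15 EXPORT (cube for three curves). -/
theorem cube3_curves [IsAlgClosed K] {C C₂ C₃ : Scheme.{u}} (sC : C ⟶ Spec (CommRingCat.of K))
    (sC₂ : C₂ ⟶ Spec (CommRingCat.of K)) (sC₃ : C₃ ⟶ Spec (CommRingCat.of K))
    (hC : IsSmoothProperCurve sC) (hC₂ : IsSmoothProperCurve sC₂)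
    (hC₃ : IsSmoothProperCurve sC₃)
    [IsIntegral C] [IsIntegral C₂] [IsIntegral C₃]
    [IsIntegral (pullback sC₂ sC₃)] [IsIntegral (pullback sC sC₃)] [IsIntegral (pullback sC sC₂)]
    [IsIntegral (pullback sC (prodS sC₂ sC₃))]
    (c₀ : Pts sC) (y₀ : Pts sC₂) (z₀ : Pts sC₃) :
    CubeProp3 sC sC₂ sC₃ c₀ y₀ z₀ := by
  exact CUBE3.H2204.cube3_curves_final sC sC₂ sC₃ hC hC₂ hC₃ c₀ y₀ z₀

/-- P9 EXPORT (norm descent): if `σ : X ⟶ Y` is a dominant morphism from a proper variety to
a normal variety with `[K(X) : K(Y)] = N`, and `σ^* M` is principal, then `N M` is principal. -/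
theorem norm_descent [IsAlgClosed K] {X Y : Scheme.{u}} [IsIntegral X] [IsIntegral Y]
    (sX : X ⟶ Spec (CommRingCat.of K)) (sY : Y ⟶ Spec (CommRingCat.of K))
    [IsProper sX] [IsSeparated sY] [LocallyOfFiniteType sY]
    (hnormal : ∀ y : Y, IsIntegrallyClosed (Y.presheaf.stalk y))
    (σ : X ⟶ Y) (hσ : σ ≫ sY = sX) (N : ℕ) (hN : IsGenFiniteOfDegree σ N)
    (M : Fam Y) (hM : M.IsCartier) (h : Fam.LinEquiv (Fam.pullc σ M) 1) :
    Fam.LinEquiv (M ^ N) 1 := by
  exact NORM5656.norm_descent sX sY hnormal σ hσ N hN M hM h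

section AV

variable [IsAlgClosed K] {A : Scheme.{u}} {f : A ⟶ Spec (CommRingCat.of K)}

/-- P8 EXPORT: there is a pointed product of smooth proper curves with a dominant, generically
finite morphism to `A` sending the base point to the origin. -/
theorem exists_curveProd_dominant (L : RelativeGroupLaw K f) (hc : L.IsCommutative)
    (hA : AbelianSchemePropertyBundle K f) (g : ℕ) [SmoothOfRelativeDimension g f]
    [IsIntegral A] :
    ∃ (X : Scheme.{u}) (sX : X ⟶ Spec (CommRingCat.of K)) (_ : IsIntegral X)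
      (x₀ : Pts sX) (σ : X ⟶ A) (N : ℕ),
      IsCurveProd X sX ∧ IsProper sX ∧ Smooth sX ∧ σ ≫ f = sX ∧
        x₀.1 ≫ σ = (L.one (𝟙 _)).1 ∧ IsGenFiniteOfDegree σ N := by
  exact Curves.exists_curveProd_dominant L hc hA g

end AV


end

end Fermat.Agent.S26
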