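import Fermat.Agent.S26.TChainA
import Fermat.Agent.S26.FORMAL.Reduce2685

/-!
# S26: cube chain, layer B (P10 REDUCE cube3_curveProd) (statements byte-identical to the frozen TChain.lean of lead helper3926)
-/

set_option autoImplicit false

universe u

open CategoryTheory CategoryTheory.Limits AlgebraicGeometry NeronModelInfra GoodReductionJacobian

namespace Fermat.Agent.S26

noncomputable section

variable {K : Type u} [Field K]

/-- P10 EXPORT (REDUCE): the cube property for three products of smooth proper curves. -/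
theorem cube3_curveProd [IsAlgClosed K] {X Y Z : Scheme.{u}} (sX : X ⟶ Spec (CommRingCat.of K))
    (sY : Y ⟶ Spec (CommRingCat.of K)) (sZ : Z ⟶ Spec (CommRingCat.of K))
    (hX : IsCurveProd X sX) (hY : IsCurveProd Y sY) (hZ : IsCurveProd Z sZ)
    [IsIntegral X] [IsIntegral Y] [IsIntegral Z]
    [IsIntegral (pullback sY sZ)] [IsIntegral (pullback sX sZ)] [IsIntegral (pullback sX sY)]
    [IsIntegral (pullback sX (prodS sY sZ))]
    (x₀ : Pts sX) (y₀ : Pts sY) (z₀ : Pts sZ) :
    CubeProp3 sX sY sZ x₀ y₀ z₀ := by
  exact FORMAL.H2685.cube3_curveProd_of_exports sX sY sZ hX hY hZ x₀ y₀ z₀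

end

end Fermat.Agent.S26
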