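import Fermat.Agent.S26.TChainB
import Fermat.Agent.S26.FORMAL.CubeX2685

/-!
# S26: cube chain, layer C (P10 CUBEX) (statements byte-identical to the frozen TChain.lean of lead helper3926)
-/

set_option autoImplicit false

universe u

open CategoryTheory CategoryTheory.Limits AlgebraicGeometry NeronModelInfra GoodReductionJacobian

namespace Fermat.Agent.S26

noncomputable section

variable {K : Type u} [Field K]

section AV

variable [IsAlgClosed K] {A : Scheme.{u}} {f : A ⟶ Spec (CommRingCat.of K)}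

/-- P10 EXPORT (CUBEX): the theorem of the cube for three morphisms from a pointed product of
curves to `A` which send the base point to the origin. -/
theorem cubeX [IsIntegral A] (L : RelativeGroupLaw K f) (hc : L.IsCommutative)
    (hA : AbelianSchemePropertyBundle K f)
    {X : Scheme.{u}} [IsIntegral X] (sX : X ⟶ Spec (CommRingCat.of K)) (hX : IsCurveProd X sX)
    (x₀ : Pts sX) (α β γ : X ⟶ A)
    (hα : α ≫ f = sX) (hβ : β ≫ f = sX) (hγ : γ ≫ f = sX)
    (hα₀ : x₀.1 ≫ α = (L.one (𝟙 _)).1) (hβ₀ : x₀.1 ≫ β = (L.one (𝟙 _)).1)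
    (hγ₀ : x₀.1 ≫ γ = (L.one (𝟙 _)).1)
    (D : Fam A) (hD : D.IsCartier) :
    Fam.LinEquiv (thetaFam L α β γ hα hβ hγ D) 1 := by
  exact FORMAL.H2685.cubeX_of_exports L hc hA sX hX x₀ α β γ hα hβ hγ hα₀ hβ₀ hγ₀ D hD

end AV


end

end Fermat.Agent.S26
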