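import Fermat.Agent.S26.TChainC
import Fermat.Agent.S26.FORMAL.Quad2685

/-!
# S26: cube chain, layer D (P10 QUAD) (statements byte-identical to the frozen TChain.lean of lead helper3926)
-/

set_option autoImplicit false

universe u

open CategoryTheory CategoryTheory.Limits AlgebraicGeometry NeronModelInfra GoodReductionJacobian

namespace Fermat.Agent.S26

noncomputable section

variable {K : Type u} [Field K]

section AV

variable [IsAlgClosed K] {A : Scheme.{u}} {f : A ⟶ Spec (CommRingCat.of K)}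

/-- P10 EXPORT (QUAD): for a symmetric divisor class `D` on `A` and `σ : X ⟶ A` from a pointed
product of curves, `(k σ)^* D ~ k² σ^* D`. -/
theorem quad [IsIntegral A] (L : RelativeGroupLaw K f) (hc : L.IsCommutative)
    (hA : AbelianSchemePropertyBundle K f)
    {X : Scheme.{u}} [IsIntegral X] (sX : X ⟶ Spec (CommRingCat.of K)) (hX : IsCurveProd X sX)
    (x₀ : Pts sX) (σ : X ⟶ A) (hσ : σ ≫ f = sX) (hσ₀ : x₀.1 ≫ σ = (L.one (𝟙 _)).1)
    (D : Fam A) (hD : D.IsCartier) (hsym : Fam.LinEquiv (Fam.pullback (negMap L) D) D)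
    (k : ℕ) :
    Fam.LinEquiv (Fam.pullc (σ ≫ L.schemeNsmul k) D) ((Fam.pullc σ D) ^ (k ^ 2)) := by
  exact FORMAL.H2685.quad_of_exports L hc hA sX hX x₀ σ hσ hσ₀ D hD hsym k

end AV


end

end Fermat.Agent.S26
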