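import Fermat.Agent.S26.TopA
import Fermat.Agent.S26.TChain
import Fermat.Agent.S26.FORMAL.TLin2685

/-!
# S26: top-level skeleton (FROZEN interface statements; lead helper3926)

Every statement below is the EXPORT of one package (see BOARD.md).  The final theorem
`result_of_exports` is assembled from them (package P16 INTEG proves `exists_volData`).

Standing hypotheses = the hypotheses of the frozen statement S26.
-/

set_option autoImplicit false

universe u

open CategoryTheory CategoryTheory.Limits AlgebraicGeometry NeronModelInfra GoodReductionJacobian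

namespace Fermat.Agent.S26

noncomputable section

variable {K : Type u} [Field K] [IsAlgClosed K] {A : Scheme.{u}}
  {f : A ⟶ Spec (CommRingCat.of K)}

/-! ## (T): Q-quadraticity, exported by the cube chain (P8 - P15, assembled in TChain.lean) -/

/-- (T) EXPORT: for a symmetric Cartier divisor `D` on `A`, some positive multiple of
`[n]^* D - n² D` is principal. -/
theorem T_linEquiv [IsIntegral A] (L : RelativeGroupLaw K f) (hc : L.IsCommutative)
    (hA : AbelianSchemePropertyBundle K f) (g : ℕ) [SmoothOfRelativeDimension g f]
    (n : ℕ) (hn : (n : K) ≠ 0)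
    (D : Fam A) (hD : D.IsCartier) (hsym : Fam.LinEquiv (Fam.pullback (negMap L) D) D) :
    ∃ N : ℕ, 0 < N ∧
      Fam.LinEquiv ((Fam.pullback (L.schemeNsmul n) D) ^ N) (D ^ (N * n ^ 2)) := by
  exact FORMAL.H2685.T_linEquiv_of_chain L hc hA g n hn D hD hsym

end

end Fermat.Agent.S26
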